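import Mathlib

/-!
Linear algebra of a line inside a two-dimensional space.
-/

set_option autoImplicit false

namespace Fermat.Agent.EC.Reducible

section

variable {k V : Type*} [Field k] [AddCommGroup V] [Module k V] [Module.Finite k V]

lemma finrank_line_eq_one (h2 : Module.finrank k V = 2) {N : Submodule k V} (hN0 : N ≠ ⊥)
    (hN1 : N ≠ ⊤) : Module.finrank k N = 1 := by
  have h0 : 0 < Module.finrank k N := by
    rw [pos_iff_ne_zero, Ne, Submodule.finrank_eq_zero]; exact hN0
  have h1 := Submodule.finrank_lt hN1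
  omega

/-- A line `N` and a proper subspace `H` either meet trivially, or `H = N`. -/
lemma disjoint_or_eq_of_line (h2 : Module.finrank k V = 2) {N H : Submodule k V} (hN0 : N ≠ ⊥)
    (hN1 : N ≠ ⊤) (hH : H ≠ ⊤) : N ⊓ H = ⊥ ∨ H = N := by
  have hN := finrank_line_eq_one h2 hN0 hN1
  by_cases hle : N ≤ H
  · right
    have h1 := Submodule.finrank_lt hH
    exact (Submodule.eq_of_le_of_finrank_le hle (by omega)).symm
  · left
    have hlt : N ⊓ H < N := lt_of_le_of_ne inf_le_left fun h => hle (inf_eq_left.mp h)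
    have h1 := Submodule.finrank_lt_finrank_of_lt hlt
    rw [← Submodule.finrank_eq_zero]
    omega

/-- If a map squares to zero and preserves a line, it kills the line and maps into it. -/
lemma square_zero_line (h2 : Module.finrank k V = 2) {N : Submodule k V} (hN0 : N ≠ ⊥)
    (hN1 : N ≠ ⊤) (f : V →ₗ[k] V) (hf : ∀ x, f (f x) = 0) (hfN : ∀ x ∈ N, f x ∈ N) :
    (∀ x ∈ N, f x = 0) ∧ ∀ x, f x ∈ N := by
  have hN := finrank_line_eq_one h2 hN0 hN1
  obtain ⟨v, hv, hv0⟩ := Submodule.exists_mem_ne_zero_of_ne_bot hN0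
  have hspan : ∀ x ∈ N, ∃ c : k, c • v = x := by
    intro x hx
    obtain ⟨c, hc⟩ := exists_smul_eq_of_finrank_eq_one hN
      (x := (⟨v, hv⟩ : N)) (by simpa using hv0) ⟨x, hx⟩
    exact ⟨c, congrArg Subtype.val hc⟩
  have hkill : ∀ x ∈ N, f x = 0 := by
    obtain ⟨c, hc⟩ := hspan (f v) (hfN v hv)
    have h : (c * c) • v = 0 := by
      rw [mul_smul, hc, ← map_smul, hc, hf]
    have hc0 : c = 0 := mul_self_eq_zero.mp ((smul_eq_zero.mp h).resolve_right hv0)
    intro x hx
    obtain ⟨d, rfl⟩ := hspan x hx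
    rw [map_smul, ← hc, hc0, zero_smul, smul_zero]
  refine ⟨hkill, fun x => ?_⟩
  by_contra hx
  have hle : N ≤ LinearMap.ker f := fun y hy => LinearMap.mem_ker.mpr (hkill y hy)
  have hfx : f x ∈ LinearMap.ker f := LinearMap.mem_ker.mpr (hf x)
  have hlt : N < LinearMap.ker f := lt_of_le_of_ne hle fun h => hx (h ▸ hfx)
  have h1 := Submodule.finrank_lt_finrank_of_lt hlt
  have htop : LinearMap.ker f = ⊤ :=
    Submodule.eq_top_of_finrank_eq (by have := Submodule.finrank_le (LinearMap.ker f); omega)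
  exact hx (by
    rw [LinearMap.mem_ker.mp (htop ▸ Submodule.mem_top : x ∈ LinearMap.ker f)]; exact N.zero_mem)

end

end Fermat.Agent.EC.Reducible
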