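import Mathlib
import Fermat.Agent.EC.Reducible.Lines

/-!
A two-dimensional representation with a stable line: local conditions on the inertia subgroups
force one of the two characters to be trivial.
-/

set_option autoImplicit false

namespace Fermat.Agent.EC.Reducible

variable {G : Type*} [Group G] {k V : Type*} [Field k] [AddCommGroup V] [Module k V]
  [DistribMulAction G V] [SMulCommClass G k V]

/-- The subgroup of elements fixing `N` pointwise. -/
def fixSub (N : Submodule k V) : Subgroup G where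
  carrier := {σ | ∀ x ∈ N, σ • x = x}
  one_mem' := fun x _ => one_smul G x
  mul_mem' := fun {a b} ha hb x hx => by rw [mul_smul, hb x hx, ha x hx]
  inv_mem' := fun {a} ha x hx => by
    rw [inv_smul_eq_iff]; exact (ha x hx).symm

/-- The subgroup of elements acting trivially on the quotient by `N`. -/
def fixQuot (N : Submodule k V) (hst : ∀ σ : G, ∀ x ∈ N, σ • x ∈ N) : Subgroup G where
  carrier := {σ | ∀ x : V, σ • x - x ∈ N}
  one_mem' := fun x => by simp
  mul_mem' := fun {a b} ha hb x => by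
    have h : (a * b) • x - x = (a • (b • x) - b • x) + (b • x - x) := by
      rw [mul_smul]; abel
    rw [h]; exact N.add_mem (ha _) (hb x)
  inv_mem' := fun {a} ha x => by
    have h := hst a⁻¹ _ (N.neg_mem (ha x))
    rw [smul_neg, smul_sub, inv_smul_smul, neg_sub] at h
    exact h

omit [SMulCommClass G k V] in
lemma fixSub_conj (N : Submodule k V) (hst : ∀ σ : G, ∀ x ∈ N, σ • x ∈ N) {σ : G}
    (hσ : σ ∈ fixSub N) (τ : G) : τ * σ * τ⁻¹ ∈ fixSub N := fun x hx => by
  rw [mul_smul, mul_smul, hσ _ (hst τ⁻¹ x hx), smul_inv_smul]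

omit [SMulCommClass G k V] in
lemma fixQuot_conj (N : Submodule k V) (hst : ∀ σ : G, ∀ x ∈ N, σ • x ∈ N) {σ : G}
    (hσ : σ ∈ fixQuot N hst) (τ : G) : τ * σ * τ⁻¹ ∈ fixQuot N hst := fun x => by
  have h := hst τ _ (hσ (τ⁻¹ • x))
  rwa [smul_sub, ← mul_smul, ← mul_smul, smul_inv_smul] at h

omit [SMulCommClass G k V] in
lemma fixSub_normal (N : Submodule k V) (hst : ∀ σ : G, ∀ x ∈ N, σ • x ∈ N) :
    (fixSub (G := G) N).Normal := ⟨fun _ hσ τ => fixSub_conj N hst hσ τ⟩

omit [SMulCommClass G k V] in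
lemma fixQuot_normal (N : Submodule k V) (hst : ∀ σ : G, ∀ x ∈ N, σ • x ∈ N) :
    (fixQuot N hst).Normal := ⟨fun _ hσ τ => fixQuot_conj N hst hσ τ⟩

section

variable [Module.Finite k V]

/-- Unipotence on a subgroup forces both characters to be trivial on it. -/
lemma le_fix_of_unipotent (h2 : Module.finrank k V = 2) (N : Submodule k V)
    (hst : ∀ σ : G, ∀ x ∈ N, σ • x ∈ N) (hN0 : N ≠ ⊥) (hN1 : N ≠ ⊤) (I : Subgroup G)
    (hI : ∀ σ ∈ I, ∀ x : V, σ • (σ • x - x) = σ • x - x) :
    I ≤ fixSub N ⊓ fixQuot N hst := by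
  intro σ hσ
  have h := square_zero_line h2 hN0 hN1
    (DistribSMul.toLinearMap k V σ - LinearMap.id) (fun x => by
      show σ • (σ • x - x) - (σ • x - x) = 0
      rw [hI σ hσ x, sub_self])
    (fun x hx => N.sub_mem (hst σ x hx) hx)
  exact ⟨fun x hx => sub_eq_zero.mp (h.1 x hx), h.2⟩

omit [SMulCommClass G k V] in
/-- If all `σ • x - x` lie in a proper subspace, one of the two characters is trivial. -/
lemma le_fix_of_le_proper (h2 : Module.finrank k V = 2) (N : Submodule k V)
    (hst : ∀ σ : G, ∀ x ∈ N, σ • x ∈ N) (hN0 : N ≠ ⊥) (hN1 : N ≠ ⊤) (H : Submodule k V)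
    (hH : H ≠ ⊤) (I : Subgroup G) (hI : ∀ σ ∈ I, ∀ x : V, σ • x - x ∈ H) :
    I ≤ fixSub N ∨ I ≤ fixQuot N hst := by
  rcases disjoint_or_eq_of_line h2 hN0 hN1 hH with h | h
  · left
    intro σ hσ x hx
    have hmem : σ • x - x ∈ N ⊓ H := ⟨N.sub_mem (hst σ x hx) hx, hI σ hσ x⟩
    rw [h, Submodule.mem_bot, sub_eq_zero] at hmem
    exact hmem
  · right
    intro σ hσ x
    exact h ▸ hI σ hσ x

end

end Fermat.Agent.EC.Reducible
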