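import Mathlib
import Fermat.Agent.EC.Torsion.Main

/-!
A reducible `p`-torsion representation has a stable line.
-/

set_option autoImplicit false

namespace Fermat.Agent.EC.Reducible

open scoped WeierstrassCurve.Affine

local notation "Qbar" => AlgebraicClosure ℚ

/-- A reducible `p`-torsion representation has a Galois stable line. -/
theorem exists_stable_line (W : WeierstrassCurve ℤ) (hΔ : W.Δ ≠ 0) {p : ℕ} (hp : p.Prime)
    (hred : ¬ WeierstrassCurve.Affine.Point.GaloisRepIsIrreducible (K := Qbar) ℚ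
      (W.map (Int.castRingHom ℚ)).toAffine p) :
    ∃ N : Submodule (ZMod p)
        (Submodule.torsionBy ℤ ((W.map (Int.castRingHom ℚ))⁄Qbar).Point p),
      WeierstrassCurve.Affine.Point.IsGaloisStable ℚ N ∧ N ≠ ⊥ ∧ N ≠ ⊤ := by
  have := Torsion.isElliptic_baseChange_map W hΔ Qbar
  have hnt : Nontrivial (Submodule.torsionBy ℤ ((W.map (Int.castRingHom ℚ))⁄Qbar).Point p) :=
    Torsion.nontrivial_torsionBy (W.map (Int.castRingHom ℚ)) Qbar
      (Nat.cast_ne_zero.mpr hp.ne_zero) hp.one_lt
  by_contra hcon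
  refine hred ⟨hnt, fun N hN => ?_⟩
  by_contra hne
  rw [not_or] at hne
  exact hcon ⟨N, hN, hne.1, hne.2⟩

end Fermat.Agent.EC.Reducible
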