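import Mathlib
import Fermat.Prelude.Def_FLTPrelim_FreyPackage
import Fermat.Prelude.Def_FLTPrelim_Modularity

/-!
The integral model of the Frey curve: discriminant, `c₄`, semistability, and the valuation of the
discriminant at `2`.
-/

set_option autoImplicit false

namespace Fermat.Agent.EC.Reducible

variable (P : FreyPackage)

lemma frey_four_dvd : (4 : ℤ) ∣ P.b ^ P.p - 1 - P.a ^ P.p := by
  refine (ZMod.intCast_zmod_eq_zero_iff_dvd _ 4).mp ?_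
  obtain ⟨k, hk⟩ := (ZMod.intCast_zmod_eq_zero_iff_dvd P.b 2).mp P.hb2
  have hb : ((P.b ^ P.p : ℤ) : ZMod 4) = 0 := by
    refine (ZMod.intCast_zmod_eq_zero_iff_dvd _ 4).mpr ?_
    have h2 : (2 : ℤ) ^ 2 ∣ (2 : ℤ) ^ P.p := pow_dvd_pow 2 (by have := P.hp5; omega)
    rw [hk, mul_pow]
    exact dvd_mul_of_dvd_left (by simpa using h2) _
  have ha : ((P.a ^ P.p : ℤ) : ZMod 4) = -1 := by
    push_cast
    rw [P.ha4, show (3 : ZMod 4) = -1 from by decide, P.hp_odd.neg_one_pow]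
  push_cast at ha hb ⊢
  rw [ha, hb]
  decide

lemma frey_sixteen_dvd : (16 : ℤ) ∣ -(P.a ^ P.p) * (P.b ^ P.p) := by
  obtain ⟨k, hk⟩ := (ZMod.intCast_zmod_eq_zero_iff_dvd P.b 2).mp P.hb2
  have h2 : (2 : ℤ) ^ 4 ∣ (2 : ℤ) ^ P.p := pow_dvd_pow 2 (by have := P.hp5; omega)
  rw [hk, mul_pow]
  exact dvd_mul_of_dvd_right (dvd_mul_of_dvd_left (by simpa using h2) _) _

theorem freyCurve_eq_map : P.freyCurve = P.freyCurveInt.map (Int.castRingHom ℚ) := by
  have h4 : (((P.b ^ P.p - 1 - P.a ^ P.p) / 4 : ℤ) : ℚ) =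
      ((P.b : ℚ) ^ P.p - 1 - (P.a : ℚ) ^ P.p) / 4 := by
    rw [Int.cast_div (frey_four_dvd P) (by norm_num)]; push_cast; ring
  have h16 : ((-(P.a ^ P.p) * (P.b ^ P.p) / 16 : ℤ) : ℚ) =
      -((P.a : ℚ) ^ P.p) * ((P.b : ℚ) ^ P.p) / 16 := by
    rw [Int.cast_div (frey_sixteen_dvd P) (by norm_num)]; push_cast; ring
  ext
  · simp [FreyPackage.freyCurve, FreyPackage.freyCurveInt]
  · exact h4.symm
  · simp [FreyPackage.freyCurve, FreyPackage.freyCurveInt]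
  · exact h16.symm
  · simp [FreyPackage.freyCurve, FreyPackage.freyCurveInt]

lemma freyCurveInt_c₄ :
    P.freyCurveInt.c₄ = (P.a ^ P.p) ^ 2 + P.a ^ P.p * P.b ^ P.p + (P.b ^ P.p) ^ 2 := by
  obtain ⟨u, hu⟩ := frey_four_dvd P
  obtain ⟨v, hv⟩ := frey_sixteen_dvd P
  simp only [WeierstrassCurve.c₄, WeierstrassCurve.b₂, WeierstrassCurve.b₄,
    FreyPackage.freyCurveInt]
  rw [hu, hv, Int.mul_ediv_cancel_left u (by norm_num : (4 : ℤ) ≠ 0),
    Int.mul_ediv_cancel_left v (by norm_num : (16 : ℤ) ≠ 0)]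
  have hb : P.b ^ P.p = 4 * u + 1 + P.a ^ P.p := by linear_combination hu
  linear_combination 3 * hv - (P.b ^ P.p + (4 * u + 1) - P.a ^ P.p + 0) * hb

lemma freyCurveInt_Δ : P.freyCurveInt.Δ * 2 ^ 8 = (P.a * P.b * P.c) ^ (2 * P.p) := by
  have h2 : (P.a * P.b * P.c) ^ (2 * P.p) =
      (P.a ^ P.p * P.b ^ P.p * (P.a ^ P.p + P.b ^ P.p)) ^ 2 := by
    rw [P.hFLT, ← mul_pow, ← mul_pow, ← pow_mul, Nat.mul_comm]
  rw [h2]
  obtain ⟨u, hu⟩ := frey_four_dvd P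
  obtain ⟨v, hv⟩ := frey_sixteen_dvd P
  simp only [WeierstrassCurve.Δ, WeierstrassCurve.b₂, WeierstrassCurve.b₄, WeierstrassCurve.b₆,
    WeierstrassCurve.b₈, FreyPackage.freyCurveInt]
  rw [hu, hv, Int.mul_ediv_cancel_left u (by norm_num : (4 : ℤ) ≠ 0),
    Int.mul_ediv_cancel_left v (by norm_num : (16 : ℤ) ≠ 0)]
  generalize P.a ^ P.p = x at hu hv ⊢
  generalize P.b ^ P.p = y at hu hv ⊢
  have hy : y = 4 * u + 1 + x := by linear_combination hu
  subst hy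
  have hv' : 16 * v = -x * (4 * u + 1 + x) := hv.symm
  linear_combination ((4 * u + 1) ^ 2 * (16 * v - x * (4 * u + 1 + x)) -
    4 * ((16 * v) ^ 2 - 16 * v * x * (4 * u + 1 + x) + (x * (4 * u + 1 + x)) ^ 2)) * hv'

lemma freyCurveInt_Δ_ne_zero : P.freyCurveInt.Δ ≠ 0 := by
  intro h
  have h1 := freyCurveInt_Δ P
  rw [h, zero_mul] at h1
  exact pow_ne_zero _ P.habc0 h1.symm

lemma frey_isCoprime_ab : IsCoprime (P.a ^ P.p) (P.b ^ P.p) := by
  refine IsCoprime.pow ?_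
  rw [Int.isCoprime_iff_gcd_eq_one]
  exact Int.natCast_inj.mp ((Int.coe_gcd P.a P.b).trans P.hgcdab)

/-- The integral model of the Frey curve is semistable. -/
theorem freyCurveInt_isSemistableModel : P.freyCurveInt.IsSemistableModel := by
  intro q hq hdvd h4
  have hpI : Prime (q : ℤ) := Nat.prime_iff_prime_int.mp hq
  have h1 : (q : ℤ) ∣ P.a * P.b * P.c :=
    hpI.dvd_of_dvd_pow (freyCurveInt_Δ P ▸ dvd_mul_of_dvd_left hdvd _)
  rw [freyCurveInt_c₄] at h4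
  have hcop := frey_isCoprime_ab P
  have hC : P.c ^ P.p = P.a ^ P.p + P.b ^ P.p := P.hFLT.symm
  have hp0 := P.hp0
  have hnot : ¬ ((q : ℤ) ∣ P.a ^ P.p ∧ (q : ℤ) ∣ P.b ^ P.p) := fun h =>
    hpI.not_isUnit (hcop.isUnit_of_dvd' h.1 h.2)
  generalize hA : P.a ^ P.p = x at h4 hC hnot hcop
  generalize hB : P.b ^ P.p = y at h4 hC hnot hcop
  rcases hpI.dvd_or_dvd h1 with h | h
  · rcases hpI.dvd_or_dvd h with h | h
    · have hx : (q : ℤ) ∣ x := hA ▸ dvd_pow h hp0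
      obtain ⟨k, hk⟩ := hx
      exact hnot ⟨⟨k, hk⟩, hpI.dvd_of_dvd_pow (n := 2) (by
        have : y ^ 2 = x ^ 2 + x * y + y ^ 2 - (q : ℤ) * (k * (x + y)) := by rw [hk]; ring
        rw [this]; exact dvd_sub h4 (dvd_mul_right _ _))⟩
    · have hy : (q : ℤ) ∣ y := hB ▸ dvd_pow h hp0
      obtain ⟨k, hk⟩ := hy
      exact hnot ⟨hpI.dvd_of_dvd_pow (n := 2) (by
        have : x ^ 2 = x ^ 2 + x * y + y ^ 2 - (q : ℤ) * (k * (x + y)) := by rw [hk]; ring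
        rw [this]; exact dvd_sub h4 (dvd_mul_right _ _)), ⟨k, hk⟩⟩
  · have hz : (q : ℤ) ∣ x + y := hC ▸ dvd_pow h hp0
    obtain ⟨k, hk⟩ := hz
    have hx : (q : ℤ) ∣ x := hpI.dvd_of_dvd_pow (n := 2) (by
        have : x ^ 2 = x ^ 2 + x * y + y ^ 2 - (q : ℤ) * (k * y) := by
          linear_combination -y * hk
        rw [this]; exact dvd_sub h4 (dvd_mul_right _ _))
    exact hnot ⟨hx, by have : y = (q : ℤ) * k - x := by linear_combination hk
                       rw [this]; exact dvd_sub (dvd_mul_right _ _) hx⟩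

theorem two_dvd_freyCurveInt_Δ : (2 : ℤ) ∣ P.freyCurveInt.Δ := by
  have h1 : (2 : ℤ) ^ (2 * P.p) ∣ (P.a * P.b * P.c) ^ (2 * P.p) :=
    pow_dvd_pow_of_dvd P.two_dvd_abc _
  rw [← freyCurveInt_Δ] at h1
  have h10 : (2 : ℤ) * 2 ^ 8 ∣ P.freyCurveInt.Δ * 2 ^ 8 :=
    dvd_trans (by
      have : (2 : ℤ) * 2 ^ 8 = 2 ^ 9 := by norm_num
      rw [this]; exact pow_dvd_pow 2 (by have := P.hp5; omega)) h1
  exact (mul_dvd_mul_iff_right (by norm_num)).mp h10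

/-- The valuation at `2` of the discriminant of the Frey curve is prime to `p`. -/
theorem not_p_dvd_val_two_Δ : ¬ P.p ∣ padicValInt 2 P.freyCurveInt.Δ := by
  have : Fact (Nat.Prime 2) := ⟨Nat.prime_two⟩
  intro hdvd
  have h := congrArg (padicValInt 2) (freyCurveInt_Δ P)
  rw [padicValInt.mul (freyCurveInt_Δ_ne_zero P) (by norm_num)] at h
  have h8 : padicValInt 2 ((2 : ℤ) ^ 8) = 8 := by
    simp only [padicValInt, Int.natAbs_pow]
    exact padicValNat.prime_pow (p := 2) 8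
  have hpow : padicValInt 2 ((P.a * P.b * P.c) ^ (2 * P.p)) =
      2 * P.p * padicValInt 2 (P.a * P.b * P.c) := by
    simp only [padicValInt, Int.natAbs_pow]
    exact padicValNat.pow (p := 2) _ (2 * P.p)
  rw [h8, hpow] at h
  have hp8 : P.p ∣ 8 := by
    have h2 : P.p ∣ 2 * P.p * padicValInt 2 (P.a * P.b * P.c) :=
      dvd_mul_of_dvd_left (dvd_mul_left _ _) _
    rw [← h] at h2
    exact (Nat.dvd_add_right hdvd).mp h2
  have : P.p ∣ 2 := P.pp.dvd_of_dvd_pow (show P.p ∣ 2 ^ 3 by simpa using hp8)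
  have := Nat.le_of_dvd (by norm_num) this
  have := P.hp5
  omega

end Fermat.Agent.EC.Reducible
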