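import Mathlib
import Fermat.Prelude.Def_FLTPrelim_Ramification

/-!
An integral polynomial whose leading coefficient is a prime `p` cannot have all of its roots
non-integral at a place over `p` and at the same time have a proper nonempty rational
subproduct of roots.
-/

set_option autoImplicit false

namespace Fermat.Agent.EC.Reducible

open Polynomial

section

variable {L : Type*} [Field L] [CharZero L] {A : ValuationSubring L} {p : ℕ}

omit [CharZero L] in
lemma intCast_mem' (A : ValuationSubring L) (n : ℤ) : (n : L) ∈ A := intCast_mem A n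

lemma not_mem_nonunits_of_not_dvd (hp : p.Prime) (hA : A.LiesOverPrime p) {n : ℤ}
    (hn : ¬ (p : ℤ) ∣ n) : (n : L) ∉ A.nonunits := by
  intro hmem
  have hcop : IsCoprime (p : ℤ) n :=
    (Nat.prime_iff_prime_int.mp hp).coprime_iff_not_dvd.mpr hn
  obtain ⟨u, v, huv⟩ := hcop
  have h1 : ∀ x ∈ A.nonunits, A.valuation x < 1 := fun x hx => A.mem_nonunits_iff.mp hx
  have hu : A.valuation (u : L) ≤ 1 := (A.valuation_le_one_iff _).mpr (intCast_mem' A u)
  have hv : A.valuation (v : L) ≤ 1 := (A.valuation_le_one_iff _).mpr (intCast_mem' A v)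
  have hlt : A.valuation ((u : L) * (p : L) + (v : L) * (n : L)) < 1 := by
    refine A.valuation.map_add_lt ?_ ?_ <;> rw [map_mul]
    · exact mul_lt_one_of_nonneg_of_lt_one_right hu zero_le (h1 _ hA)
    · exact mul_lt_one_of_nonneg_of_lt_one_right hv zero_le (h1 _ hmem)
  have : (u : L) * (p : L) + (v : L) * (n : L) = 1 := by
    exact_mod_cast congrArg (Int.cast : ℤ → L) huv
  rw [this, map_one] at hlt
  exact lt_irrefl _ hlt

lemma ratCast_eq_mul_of_mem_nonunits (hp : p.Prime) (hA : A.LiesOverPrime p) {r : ℚ}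
    (hr : (r : L) ∈ A.nonunits) : ∃ a ∈ A, (r : L) = (p : L) * a := by
  have hden : ((r.den : ℤ) : L) ≠ 0 := by exact_mod_cast r.den_nz
  have hnum : ((r.num : ℤ) : L) = (r : L) * ((r.den : ℤ) : L) := by
    push_cast; exact_mod_cast (Rat.mul_den_eq_num r).symm
  have hnum' : ((r.num : ℤ) : L) ∈ A.nonunits := by
    rw [A.mem_nonunits_iff] at hr ⊢
    rw [hnum, map_mul]
    exact mul_lt_one_of_nonneg_of_lt_one_left zero_le hr
      ((A.valuation_le_one_iff _).mpr (intCast_mem' A _))
  have hpn : (p : ℤ) ∣ r.num := by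
    by_contra h; exact not_mem_nonunits_of_not_dvd hp hA h hnum'
  have hpd : ¬ (p : ℤ) ∣ (r.den : ℤ) := fun h => by
    have h1 : p ∣ r.num.natAbs := Int.natCast_dvd.mp hpn
    have h2 : p ∣ r.den := by exact_mod_cast h
    exact hp.not_dvd_one (r.reduced ▸ Nat.dvd_gcd h1 h2)
  have hunit : A.valuation ((r.den : ℤ) : L) = 1 :=
    le_antisymm ((A.valuation_le_one_iff _).mpr (intCast_mem' A _))
      (not_lt.mp fun h => not_mem_nonunits_of_not_dvd hp hA hpd (A.mem_nonunits_iff.mpr h))
  obtain ⟨k, hk⟩ := hpn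
  refine ⟨(k : L) / ((r.den : ℤ) : L), (A.valuation_le_one_iff _).mp ?_, ?_⟩
  · rw [map_div₀, hunit, div_one]; exact (A.valuation_le_one_iff _).mpr (intCast_mem' A k)
  · rw [mul_div_assoc', eq_div_iff hden, ← hnum, hk]; push_cast; ring

omit [CharZero L] in
lemma valuation_multiset_prod_inv_lt_one {s : Multiset L} (hs : ∀ x ∈ s, x ∉ A) (hne : s ≠ 0) :
    A.valuation (s.map (·⁻¹)).prod < 1 := by
  induction s using Multiset.induction_on with
  | empty => exact absurd rfl hne
  | cons a s ih =>
    have ha : A.valuation a⁻¹ < 1 := by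
      rw [map_inv₀]
      exact inv_lt_one_of_one_lt₀ (not_le.mp fun h =>
        hs a (Multiset.mem_cons_self a s) ((A.valuation_le_one_iff a).mp h))
    rw [Multiset.map_cons, Multiset.prod_cons, map_mul]
    by_cases hs0 : s = 0
    · subst hs0; simpa using ha
    · exact mul_lt_one_of_nonneg_of_lt_one_left zero_le ha
        (ih (fun x hx => hs x (Multiset.mem_cons_of_mem hx)) hs0).le

end

/-- The main contradiction. -/
theorem false_of_all_roots_not_integral {L : Type*} [Field L] [CharZero L] [IsAlgClosed L]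
    (A : ValuationSubring L) {p : ℕ} (hp : p.Prime) (hA : A.LiesOverPrime p) (F : ℤ[X])
    (hlead : F.leadingCoeff = (p : ℤ))
    (hroots : ∀ x : L, (F.map (Int.castRingHom L)).IsRoot x → x ∉ A)
    (S : Finset L) (hS : S.Nonempty) (hScard : S.card < F.natDegree)
    (hSroot : ∀ x ∈ S, (F.map (Int.castRingHom L)).IsRoot x)
    (hrat : ∃ r : ℚ, (r : L) = S.prod id) : False := by
  classical
  set G := F.map (Int.castRingHom L) with hG
  have hinj : Function.Injective (Int.castRingHom L) := Int.cast_injective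
  have hsplit : G.Splits := IsAlgClosed.splits G
  have hGne : G ≠ 0 := by
    rw [hG, Polynomial.map_ne_zero_iff hinj]
    rintro rfl
    simp at hScard
  have hGlead : G.leadingCoeff = (p : L) := by
    rw [hG, leadingCoeff_map_of_injective hinj, hlead]; simp
  have hdeg : G.natDegree = F.natDegree := natDegree_map_eq_of_injective hinj F
  have hmem : ∀ x, x ∈ G.roots ↔ G.IsRoot x := fun x => mem_roots hGne
  -- split the roots
  have hle : S.val ≤ G.roots :=
    (Multiset.le_iff_subset S.nodup).mpr fun x hx => (hmem x).mpr (hSroot x hx)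
  obtain ⟨T, hT⟩ := Multiset.le_iff_exists_add.mp hle
  have hTne : T ≠ 0 := by
    intro h0
    have h := congrArg Multiset.card hT
    rw [h0, add_zero] at h
    rw [← hsplit.natDegree_eq_card_roots, hdeg] at h
    exact hScard.ne h.symm
  have hSnot : ∀ x ∈ S.val, x ∉ A := fun x hx => hroots x (hSroot x hx)
  have hTnot : ∀ x ∈ T, x ∉ A := fun x hx =>
    hroots x ((hmem x).mp (hT ▸ Multiset.mem_add.mpr (Or.inr hx)))
  have hTlt := valuation_multiset_prod_inv_lt_one hTnot hTne
  have hSlt := valuation_multiset_prod_inv_lt_one hSnot (by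
    simpa [Finset.val_eq_zero] using hS.ne_empty)
  have hne0 : ∀ (s : Multiset L), (∀ x ∈ s, x ∉ A) → s.prod ≠ 0 := fun s hs =>
    Multiset.prod_ne_zero fun h0 => hs 0 h0 A.zero_mem
  -- rational subproduct is divisible by `p`
  obtain ⟨r, hr⟩ := hrat
  have hSprod : S.prod id = S.val.prod := by
    rw [Finset.prod_eq_multiset_prod, Multiset.map_id]
  have hri : ((r⁻¹ : ℚ) : L) = (S.val.map (·⁻¹)).prod := by
    rw [Rat.cast_inv, hr, hSprod, Multiset.prod_map_inv]; simp
  obtain ⟨a, haA, ha⟩ := ratCast_eq_mul_of_mem_nonunits hp hA (r := r⁻¹)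
    (A.mem_nonunits_iff.mpr (hri ▸ hSlt))
  -- compare with the constant coefficient
  have hc0 := hsplit.coeff_zero_eq_leadingCoeff_mul_prod_roots
  rw [hGlead, hT, Multiset.prod_add, hG, coeff_map, ← hG] at hc0
  have hT0 := hne0 T hTnot
  have hS0 := hne0 S.val hSnot
  have hp0 : (p : L) ≠ 0 := Nat.cast_ne_zero.mpr hp.ne_zero
  have hkey : ((F.coeff 0 : ℤ) : L) * a * (T.map (·⁻¹)).prod = (-1) ^ G.natDegree := by
    have hSi : (S.val.map (·⁻¹)).prod = (p : L) * a := hri.symm.trans ha
    rw [Multiset.prod_map_inv, Multiset.map_id'] at hSi ⊢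
    have hc0' : ((F.coeff 0 : ℤ) : L) = (-1) ^ G.natDegree * (p : L) * (S.val.prod * T.prod) := by
      simpa using hc0
    rw [hc0']
    have : a = S.val.prod⁻¹ / (p : L) := by rw [hSi]; field_simp
    rw [this]; field_simp
  have hlt : A.valuation (((F.coeff 0 : ℤ) : L) * a * (T.map (·⁻¹)).prod) < 1 := by
    rw [map_mul]
    refine mul_lt_one_of_nonneg_of_lt_one_right ?_ zero_le hTlt
    rw [map_mul]
    exact mul_le_one' ((A.valuation_le_one_iff _).mpr (intCast_mem' A _))
      ((A.valuation_le_one_iff _).mpr haA)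
  rw [hkey, map_pow, A.valuation.map_neg, map_one, one_pow] at hlt
  exact lt_irrefl _ hlt

end Fermat.Agent.EC.Reducible
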