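import Mathlib
import Fermat.Prelude.Def_FLTPrelim_Ramification
import Fermat.Agent.EC.Torsion.Main
import Fermat.Agent.EC.Reducible.NonIntegral
import Fermat.Agent.EC.Reducible.Lines

/-!
If the `p`-torsion of an integral Weierstrass curve has a Galois stable line, then at every place
over `p` some `p`-torsion point has an integral `x`-coordinate.
-/

set_option autoImplicit false

namespace Fermat.Agent.EC.Reducible

open WeierstrassCurve
open scoped WeierstrassCurve.Affine

local notation "Qbar" => AlgebraicClosure ℚ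

/-- The abscissa of a point (`0` for the point at infinity). -/
def xCoord {R : Type*} [CommRing R] {W : WeierstrassCurve.Affine R} : W.Point → R
  | .zero => 0
  | .some x _ _ => x

lemma preΨ'_baseChange_int (W : WeierstrassCurve ℤ) (n : ℕ) :
    ((W.map (Int.castRingHom ℚ))⁄Qbar).preΨ' n = (W.preΨ' n).map (Int.castRingHom Qbar) := by
  show ((W.map (Int.castRingHom ℚ)).map (algebraMap ℚ Qbar)).preΨ' n = _
  rw [WeierstrassCurve.map_preΨ', WeierstrassCurve.map_preΨ', Polynomial.map_map]
  congr 1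

/-- With a Galois stable line, some `p`-torsion point has integral `x`-coordinate at a place
over `p`. -/
theorem exists_torsion_x_mem (W : WeierstrassCurve ℤ) (hΔ : W.Δ ≠ 0) {p : ℕ} (hp : p.Prime)
    (hp2 : p ≠ 2) (A : ValuationSubring Qbar) (hA : A.LiesOverPrime p)
    (N : Submodule (ZMod p) (Submodule.torsionBy ℤ ((W.map (Int.castRingHom ℚ))⁄Qbar).Point p))
    (hst : Affine.Point.IsGaloisStable ℚ N) (hN0 : N ≠ ⊥) (hN1 : N ≠ ⊤) :
    ∃ (P : Submodule.torsionBy ℤ ((W.map (Int.castRingHom ℚ))⁄Qbar).Point p) (x y : Qbar)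
      (h : ((W.map (Int.castRingHom ℚ))⁄Qbar).toAffine.Nonsingular x y),
      (P : ((W.map (Int.castRingHom ℚ))⁄Qbar).Point) = .some x y h ∧ x ∈ A := by
  classical
  by_contra hcon
  push Not at hcon
  have := Torsion.isElliptic_baseChange_map W hΔ Qbar
  have : Fact p.Prime := ⟨hp⟩
  have hodd : Odd p := hp.odd_of_ne_two hp2
  have hpK : (p : Qbar) ≠ 0 := Nat.cast_ne_zero.mpr hp.ne_zero
  set V := Submodule.torsionBy ℤ ((W.map (Int.castRingHom ℚ))⁄Qbar).Point p
  have hcard : Nat.card V = p ^ 2 := Torsion.natCard_torsionBy_int W hΔ hp.ne_zero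
  have : Finite V := Nat.finite_of_card_ne_zero (by rw [hcard]; exact pow_ne_zero 2 hp.ne_zero)
  have : Fintype N := Fintype.ofFinite N
  have hrank : Module.finrank (ZMod p) V = 2 := Torsion.finrank_torsionBy _ Qbar hpK
  have hNcard : Fintype.card N = p := by
    have h1 : Module.finrank (ZMod p) N = 1 := finrank_line_eq_one hrank hN0 hN1
    rw [Module.card_eq_pow_finrank (K := ZMod p), ZMod.card, h1, pow_one]
  -- the polynomial
  let F := W.preΨ' p
  have hF := preΨ'_baseChange_int W p
  have hpZ : ((p : ℕ) : ℤ) ≠ 0 := Int.natCast_ne_zero.mpr hp.ne_zero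
  have hlead : F.leadingCoeff = (p : ℤ) := by
    rw [WeierstrassCurve.leadingCoeff_preΨ' W hpZ, if_neg (Nat.not_even_iff_odd.mpr hodd)]
  have hdeg : F.natDegree = (p ^ 2 - 1) / 2 := by
    rw [WeierstrassCurve.natDegree_preΨ' W hpZ, if_neg (Nat.not_even_iff_odd.mpr hodd)]
  -- the nonzero points of `N` and their abscissae
  set s : Finset N := Finset.univ.erase 0 with hs
  let X : N → Qbar := fun P => xCoord (((P : V)) : ((W.map (Int.castRingHom ℚ))⁄Qbar).Point)
  set S : Finset Qbar := s.image X with hS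
  have hsome : ∀ P : N, P ≠ 0 → ∃ (x y : Qbar)
      (h : ((W.map (Int.castRingHom ℚ))⁄Qbar).toAffine.Nonsingular x y),
      ((P : V) : ((W.map (Int.castRingHom ℚ))⁄Qbar).Point) = .some x y h := by
    intro P hP
    cases hP' : ((P : V) : ((W.map (Int.castRingHom ℚ))⁄Qbar).Point) with
    | zero => exact absurd (Subtype.ext (Subtype.ext hP')) hP
    | some x y h => exact ⟨x, y, h, rfl⟩
  refine false_of_all_roots_not_integral A hp hA F hlead ?_ S ?_ ?_ ?_ ?_
  · intro x hx
    rw [← hF] at hx
    obtain ⟨y, h, hP⟩ := Torsion.exists_preΨ'_root_eq (W.map (Int.castRingHom ℚ)) Qbar hodd x hx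
    exact hcon ⟨_, hP⟩ x y h rfl
  · rw [hS, Finset.image_nonempty, ← Finset.card_pos, hs,
      Finset.card_erase_of_mem (Finset.mem_univ _),
      Finset.card_univ, hNcard]
    have := hp.two_le; omega
  · rw [hdeg]
    calc S.card ≤ s.card := Finset.card_image_le
      _ = p - 1 := by
        rw [hs, Finset.card_erase_of_mem (Finset.mem_univ _), Finset.card_univ, hNcard]
      _ < (p ^ 2 - 1) / 2 := by
        have h3 : 3 ≤ p := by have := hp.two_le; omega
        have h33 : 3 * p ≤ p ^ 2 := by rw [sq]; exact Nat.mul_le_mul_right p h3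
        omega
  · intro x hx
    obtain ⟨P, hP, rfl⟩ := Finset.mem_image.mp hx
    obtain ⟨x, y, h, hxy⟩ := hsome P (Finset.ne_of_mem_erase hP)
    have hX : X P = x := by simp only [X, hxy, xCoord]
    rw [hX, ← hF]
    have hz : p • Affine.Point.some x y h = 0 := by
      rw [← hxy, ← natCast_zsmul]; exact (P : V).2
    exact (Torsion.nsmul_some_eq_zero_iff_of_odd hodd h).mp hz
  · have himg : ∀ σ : Qbar ≃ₐ[ℚ] Qbar, S.image σ = S := by
      intro σ
      refine Finset.eq_of_subset_of_card_le ?_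
        (by rw [Finset.card_image_of_injective _ σ.injective])
      intro z hz
      obtain ⟨w, hw, rfl⟩ := Finset.mem_image.mp hz
      obtain ⟨P, hP, rfl⟩ := Finset.mem_image.mp hw
      obtain ⟨x, y, h, hxy⟩ := hsome P (Finset.ne_of_mem_erase hP)
      refine Finset.mem_image.mpr ⟨⟨σ • (P : V), hst σ _ P.2⟩, ?_, ?_⟩
      · refine Finset.mem_erase.mpr ⟨fun h0 => Finset.ne_of_mem_erase hP ?_, Finset.mem_univ _⟩
        exact Subtype.ext ((smul_eq_zero_iff_eq σ).mp (congrArg Subtype.val h0))
      · show xCoord (σ • ((P : V) : ((W.map (Int.castRingHom ℚ))⁄Qbar).Point)) =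
          σ (xCoord ((P : V) : ((W.map (Int.castRingHom ℚ))⁄Qbar).Point))
        rw [hxy]
        rfl
    have hfix : ∀ σ : Qbar ≃ₐ[ℚ] Qbar, σ (S.prod id) = S.prod id := by
      intro σ
      conv_rhs => rw [← himg σ]
      rw [map_prod, Finset.prod_image fun a _ b _ hab => σ.injective hab]
      rfl
    have : IsAlgClosure ℚ Qbar := ⟨inferInstance, AlgebraicClosure.isAlgebraic ℚ⟩
    have : IsGalois ℚ Qbar := IsAlgClosure.isGalois ℚ Qbar
    obtain ⟨r, hr⟩ := (InfiniteGalois.mem_range_algebraMap_iff_fixed (S.prod id)).mpr hfix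
    exact ⟨r, by simpa using hr⟩

end Fermat.Agent.EC.Reducible
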