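import Mathlib
import Fermat.Agent.EC.Reduction.Galois
import Fermat.Agent.EC.Reducible.IntegralPoint

/-!
The subgroup of torsion points reducing to infinity, and the action of inertia on it.
-/

set_option autoImplicit false

namespace Fermat.Agent.EC.Reducible

open WeierstrassCurve Fermat.Agent.EC.Reduction
open scoped WeierstrassCurve.Affine

local notation "Qbar" => AlgebraicClosure ℚ

variable (W : WeierstrassCurve ℤ) (A : ValuationSubring (AlgebraicClosure ℚ))

/-- The reduction of `W` in the residue field of `A`. -/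
noncomputable abbrev redCurve : WeierstrassCurve (IsLocalRing.ResidueField A) :=
  W.map (Int.castRingHom (IsLocalRing.ResidueField A))

/-- The `n`-torsion points reducing to infinity. -/
noncomputable def infSub (n : ℕ) :
    Submodule (ZMod n) (Submodule.torsionBy ℤ ((W.map (Int.castRingHom ℚ))⁄Qbar).Point n) :=
  AddSubgroup.toZModSubmodule n
    { carrier := {P : Submodule.torsionBy ℤ ((W.map (Int.castRingHom ℚ))⁄Qbar).Point n |
      RedTo (IsLocalRing.residue A) (redCurve W A)
        (P : ((W.map (Int.castRingHom ℚ))⁄Qbar).Point) 0}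
      zero_mem' := RedTo.zero (π := IsLocalRing.residue A) (W₀ := redCurve W A)
        (E := (W.map (Int.castRingHom ℚ))⁄Qbar)
      add_mem' := fun {a b} ha hb => by
        classical
        simpa using RedTo.add (reduces_intModel W _) ha hb
      neg_mem' := fun {a} ha => by
        classical
        simpa using RedTo.neg (reduces_intModel W _) ha }

lemma mem_infSub {n : ℕ} {P : Submodule.torsionBy ℤ ((W.map (Int.castRingHom ℚ))⁄Qbar).Point n} :
    P ∈ infSub W A n ↔ RedTo (IsLocalRing.residue A) (redCurve W A)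
      (P : ((W.map (Int.castRingHom ℚ))⁄Qbar).Point) 0 := Iff.rfl

variable {W A}

theorem infSub_ne_top (hΔ : W.Δ ≠ 0) {p : ℕ} (hp : p.Prime) (hp2 : p ≠ 2) (hA : A.LiesOverPrime p)
    (N : Submodule (ZMod p) (Submodule.torsionBy ℤ ((W.map (Int.castRingHom ℚ))⁄Qbar).Point p))
    (hst : Affine.Point.IsGaloisStable ℚ N) (hN0 : N ≠ ⊥) (hN1 : N ≠ ⊤) :
    infSub W A p ≠ ⊤ := by
  intro htop
  obtain ⟨P, x, y, h, hP, hx⟩ := exists_torsion_x_mem W hΔ hp hp2 A hA N hst hN0 hN1
  have hmem : P ∈ infSub W A p := htop ▸ Submodule.mem_top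
  rw [mem_infSub, hP] at hmem
  rcases hmem with ⟨hx', -⟩ | ⟨x₀, y₀, h₀, -, -, h0⟩
  · exact hx' hx
  · exact Affine.Point.some_ne_zero h₀ h0.symm

/-- Inertia moves a point with nonsingular reduction inside the points reducing to infinity. -/
theorem redTo_smul_sub_self {σ : Qbar ≃ₐ[ℚ] Qbar} (hσ : σ ∈ A.inertiaSubgroupIn ℚ)
    {P : ((W.map (Int.castRingHom ℚ))⁄Qbar).Point} (hP : W.InZeroComponentAt A P) :
    RedTo (IsLocalRing.residue A) (redCurve W A) (σ • P - P) 0 := by
  classical
  obtain ⟨Q, hQ⟩ := (inZeroComponentAt_iff W A P).mp hP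
  have h := RedTo.add (reduces_intModel W _) (redTo_smul_of_mem_inertia hσ hQ)
    (RedTo.neg (reduces_intModel W _) hQ)
  rwa [← sub_eq_add_neg, add_neg_cancel] at h

/-- Inertia fixes the torsion in the zero component, prime to the residue characteristic. -/
theorem unipotent_of_sub_mem {q n : ℕ} (hq : q.Prime) (hA : A.LiesOverPrime q) (hn : ¬ q ∣ n)
    (hcomp : ∀ σ ∈ A.inertiaSubgroupIn ℚ, ∀ P : ((W.map (Int.castRingHom ℚ))⁄Qbar).Point,
      W.InZeroComponentAt A (σ • P - P)) :
    ∀ σ ∈ A.inertiaSubgroupIn ℚ,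
      ∀ x : Submodule.torsionBy ℤ ((W.map (Int.castRingHom ℚ))⁄Qbar).Point n,
        σ • (σ • x - x) = σ • x - x := by
  intro σ hσ x
  apply Subtype.ext
  refine smul_eq_of_inZeroComponentAt hq hA hn hσ (hcomp σ hσ x) ?_
  rw [← natCast_zsmul]
  exact (σ • x - x).2

/-- Good reduction: every point has nonsingular reduction. -/
theorem inZeroComponentAt_of_good {q : ℕ} (hq : q.Prime) (hA : A.LiesOverPrime q)
    (hW : ¬ (q : ℤ) ∣ W.Δ) (P : ((W.map (Int.castRingHom ℚ))⁄Qbar).Point) :
    W.InZeroComponentAt A P := by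
  classical
  exact (inZeroComponentAt_iff W A P).mpr (exists_redTo_of_Δ_ne_zero (reduces_intModel W _)
    (Δ_intModel_ne_zero (IsLocalRing.residue A) hq hA hW) P)

end Fermat.Agent.EC.Reducible
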