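import Mathlib
import Fermat.Agent.Gal.Places
import Fermat.Agent.EC.Reduction.Galois
import Fermat.Agent.EC.Reducible.Local

/-!
The Frey curve has no rational point of order `p`: at `2` such a point would have nonsingular
reduction, and the reduced curve has at most four nonsingular rational points.
-/

set_option autoImplicit false

namespace Fermat.Agent.EC.Reducible

open WeierstrassCurve Fermat.Agent.EC.Reduction
open scoped WeierstrassCurve.Affine

local notation "Qbar" => AlgebraicClosure ℚ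

lemma freyCurveInt_a₄_even (P : FreyPackage) : (2 : ℤ) ∣ P.freyCurveInt.a₄ := by
  obtain ⟨k, hk⟩ := (ZMod.intCast_zmod_eq_zero_iff_dvd P.b 2).mp P.hb2
  have h2 : (2 : ℤ) ^ 5 ∣ (2 : ℤ) ^ P.p := pow_dvd_pow 2 P.hp5
  have h32 : (32 : ℤ) ∣ -(P.a ^ P.p) * P.b ^ P.p := by
    rw [hk, mul_pow]
    exact dvd_mul_of_dvd_right (dvd_mul_of_dvd_left (by simpa using h2) _) _
  obtain ⟨m, hm⟩ := h32
  refine ⟨m, ?_⟩
  show -(P.a ^ P.p) * P.b ^ P.p / 16 = 2 * m
  rw [hm, show (32 : ℤ) * m = 16 * (2 * m) by ring, Int.mul_ediv_cancel_left _ (by norm_num)]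

/-- The residue of a rational number integral at a place over `2` is `0` or `1`. -/
lemma residue_rat_two (A : ValuationSubring Qbar) (hA : A.LiesOverPrime 2) {x : Qbar} (hx : x ∈ A)
    (hrat : ∃ r : ℚ, (r : Qbar) = x) :
    IsLocalRing.residue A ⟨x, hx⟩ = 0 ∨ IsLocalRing.residue A ⟨x, hx⟩ = 1 := by
  obtain ⟨r, rfl⟩ := hrat
  by_cases h0 : (r : Qbar) ∈ A.nonunits
  · left
    rw [IsLocalRing.residue_eq_zero_iff]
    exact A.coe_mem_nonunits_iff.mp h0
  · right
    rw [← map_one (IsLocalRing.residue A), ← sub_eq_zero, ← map_sub,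
      IsLocalRing.residue_eq_zero_iff]
    refine A.coe_mem_nonunits_iff.mp ?_
    show (r : Qbar) - 1 ∈ A.nonunits
    -- `r = u/v` with `u`, `v` odd
    have hval : A.valuation (r : Qbar) = 1 :=
      le_antisymm ((A.valuation_le_one_iff _).mpr hx)
        (not_lt.mp fun h => h0 (A.mem_nonunits_iff.mpr h))
    have hmul : (r : Qbar) * ((r.den : ℤ) : Qbar) = ((r.num : ℤ) : Qbar) := by
      push_cast; exact_mod_cast Rat.mul_den_eq_num r
    have hle : ∀ n : ℤ, A.valuation (n : Qbar) ≤ 1 := fun n =>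
      (A.valuation_le_one_iff _).mpr (intCast_mem A n)
    have hodd : ∀ n : ℤ, A.valuation (n : Qbar) = 1 ↔ ¬ (2 : ℤ) ∣ n := fun n => by
      rw [show (2 : ℤ) = ((2 : ℕ) : ℤ) from rfl, ← Gal.intCast_mem_nonunits_iff A Nat.prime_two hA,
        A.mem_nonunits_iff]
      exact ⟨fun h => by simp [h], fun h => le_antisymm (hle n) (not_lt.mp h)⟩
    have heq : A.valuation ((r.num : ℤ) : Qbar) = A.valuation ((r.den : ℤ) : Qbar) := by
      rw [← hmul, map_mul, hval, one_mul]
    have hden : ¬ (2 : ℤ) ∣ (r.den : ℤ) := fun hd => by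
      have hn : (2 : ℤ) ∣ r.num := by
        by_contra hn
        exact (hodd _).mp (heq ▸ (hodd _).mpr hn) hd
      have h2 : 2 ∣ Nat.gcd r.num.natAbs r.den :=
        Nat.dvd_gcd (Int.natCast_dvd.mp hn) (by exact_mod_cast hd)
      exact Nat.prime_two.not_dvd_one (r.reduced ▸ h2)
    have hnum : ¬ (2 : ℤ) ∣ r.num := (hodd _).mp (heq.trans ((hodd _).mpr hden))
    have hsub : (2 : ℤ) ∣ r.num - r.den := by omega
    have hne : ((r.den : ℤ) : Qbar) ≠ 0 := by exact_mod_cast r.den_nz
    have hrew : (r : Qbar) - 1 = ((r.num - r.den : ℤ) : Qbar) * ((r.den : ℤ) : Qbar)⁻¹ := by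
      rw [Int.cast_sub, ← hmul]; field_simp
    rw [hrew, A.mem_nonunits_iff, map_mul, map_inv₀, (hodd _).mpr hden, inv_one, mul_one,
      ← A.mem_nonunits_iff]
    exact (Gal.intCast_mem_nonunits_iff A Nat.prime_two hA _).mpr hsub

/-- The Frey curve has no nonzero Galois fixed point of order dividing `p`, provided such points lie
on the zero component at `2`. -/
theorem no_rational_torsion (P : FreyPackage)
    (hcomp : ∀ A : ValuationSubring Qbar, A.LiesOverPrime 2 →
      ∀ Q : ((P.freyCurveInt.map (Int.castRingHom ℚ))⁄Qbar).Point,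
        (∀ σ : Qbar ≃ₐ[ℚ] Qbar, σ • Q = Q) → P.p • Q = 0 → P.freyCurveInt.InZeroComponentAt A Q)
    (Q : ((P.freyCurveInt.map (Int.castRingHom ℚ))⁄Qbar).Point) (hQ0 : Q ≠ 0)
    (hQp : P.p • Q = 0) (hfix : ∀ σ : Qbar ≃ₐ[ℚ] Qbar, σ • Q = Q) : False := by
  classical
  obtain ⟨A, hA⟩ := Gal.exists_liesOverPrime (L := Qbar) Nat.prime_two
  set π := IsLocalRing.residue A with hπ
  set W₀ := redCurve P.freyCurveInt A
  have hred := reduces_intModel (K := Qbar) P.freyCurveInt π
  have hchar : CharP (IsLocalRing.ResidueField A) 2 := charP_of_liesOverPrime π Nat.prime_two hA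
  have hpk : (P.p : IsLocalRing.ResidueField A) ≠ 0 :=
    natCast_ne_zero_of_liesOverPrime π Nat.prime_two hA fun h => by
      have := (Nat.prime_dvd_prime_iff_eq Nat.prime_two P.pp).mp h
      have := P.hp5
      omega
  have hsn : ∀ (σ : Qbar ≃ₐ[ℚ] Qbar) (m : ℕ)
      (R : ((P.freyCurveInt.map (Int.castRingHom ℚ))⁄Qbar).Point), σ • (m • R) = m • (σ • R) :=
    fun σ m R => (Affine.Point.map σ.toAlgHom).map_nsmul m R
  have hkp : ∀ m : ℕ, P.p • (m • Q) = 0 := fun m => by
    rw [smul_comm, hQp, nsmul_zero]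
  have hexists : ∀ m : ℕ, ∃ R, RedTo π W₀ (m • Q) R := fun m =>
    (inZeroComponentAt_iff P.freyCurveInt A _).mp (hcomp A hA _ (fun σ => by rw [hsn, hfix σ])
      (hkp m))
  choose f hf using hexists
  -- the candidates for the reductions
  let C : Finset (Option (IsLocalRing.ResidueField A × IsLocalRing.ResidueField A)) :=
    {none, some (0, 1), some (1, 0), some (1, 1)}
  let g : W₀.toAffine.Point → Option (IsLocalRing.ResidueField A × IsLocalRing.ResidueField A) :=
    fun R => match R with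
      | .zero => none
      | .some x y _ => some (x, y)
  have hg : Function.Injective g := by
    rintro (_ | ⟨x, y, h⟩) (_ | ⟨x', y', h'⟩) e
    · rfl
    · exact Option.noConfusion rfl (heq_of_eq e)
    · exact Option.noConfusion rfl (heq_of_eq e)
    · obtain ⟨rfl, rfl⟩ : x = x' ∧ y = y' := by simpa [g] using e
      rfl
  have hmem : ∀ m : ℕ, g (f m) ∈ C := by
    intro m
    have hm := hf m
    have hfixm : ∀ σ : Qbar ≃ₐ[ℚ] Qbar, σ • (m • Q) = m • Q := fun σ => by
      rw [hsn, hfix σ]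
    generalize hR : m • Q = R at hm hfixm
    rcases R with _ | ⟨x, y, h⟩
    · have h0 : f m = 0 := hm
      rw [h0]
      exact Finset.mem_insert_self _ _
    rcases hm with ⟨-, h0⟩ | ⟨x₀, y₀, h₀, ⟨hx, hx₀⟩, ⟨hy, hy₀⟩, h0⟩
    · rw [h0]
      exact Finset.mem_insert_self _ _
    rw [h0]
    have hrat : ∀ σ : Qbar ≃ₐ[ℚ] Qbar, σ x = x ∧ σ y = y := fun σ => by
      have e := hfixm σ
      simp only [WeierstrassCurve.Affine.Point.algEquiv_smul_def,
        WeierstrassCurve.Affine.Point.map_some] at e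
      injection e with e1 e2
      exact ⟨e1, e2⟩
    obtain ⟨r, hr⟩ := (InfiniteGalois.mem_range_algebraMap_iff_fixed x).mpr fun σ => (hrat σ).1
    obtain ⟨s, hs⟩ := (InfiniteGalois.mem_range_algebraMap_iff_fixed y).mpr fun σ => (hrat σ).2
    have hx01 := residue_rat_two A hA hx ⟨r, by simpa using hr⟩
    have hy01 := residue_rat_two A hA hy ⟨s, by simpa using hs⟩
    rw [← hπ, hx₀] at hx01
    rw [← hπ, hy₀] at hy01
    have hsing : ¬ (x₀ = 0 ∧ y₀ = 0) := by
      rintro ⟨rfl, rfl⟩
      have ha4 : W₀.a₄ = 0 := by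
        show ((P.freyCurveInt.a₄ : ℤ) : IsLocalRing.ResidueField A) = 0
        exact (CharP.intCast_eq_zero_iff _ 2 _).mpr (freyCurveInt_a₄_even P)
      have ha3 : W₀.a₃ = 0 := map_zero (Int.castRingHom _)
      rcases ((Affine.nonsingular_iff' ..).mp h₀).2 with h' | h'
      · exact h' (by simp [ha4])
      · exact h' (by simp [ha3])
    show some (x₀, y₀) ∈ C
    rcases hx01 with rfl | rfl <;> rcases hy01 with rfl | rfl
    · exact absurd ⟨rfl, rfl⟩ hsing
    all_goals simp [C]
  have hinj : Set.InjOn (fun m => g (f m)) (Finset.range P.p) := by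
    intro i hi j hj hij
    have hij' : f i = f j := hg hij
    have h := eq_of_redTo_of_nsmul_eq_zero hred (hf i) (hij' ▸ hf j) hpk (hkp i) (hkp j)
    have hord : addOrderOf Q = P.p := by
      have : Fact P.p.Prime := ⟨P.pp⟩
      exact addOrderOf_eq_prime hQp hQ0
    exact nsmul_injOn_Iio_addOrderOf (by simpa [hord] using hi) (by simpa [hord] using hj) h
  have hcard := Finset.card_le_card_of_injOn (s := Finset.range P.p) (t := C)
    (fun m => g (f m)) (fun m _ => hmem m) hinj
  rw [Finset.card_range] at hcard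
  have h4 : C.card ≤ 4 := Finset.card_le_four
  have := P.hp5
  omega

end Fermat.Agent.EC.Reducible
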