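import Mathlib
import Fermat.Prelude.Def_FLTPrelim_Ramification
import Fermat.Agent.EC.Reducible.Dichotomy

/-!
From local conditions at all places to the triviality of one of the two characters, given
Minkowski's theorem in the form "an open normal subgroup containing all inertia is everything"
and the conjugacy of places over a prime.
-/

set_option autoImplicit false

namespace Fermat.Agent.EC.Reducible

local notation "Qbar" => AlgebraicClosure ℚ
local notation "GQ" => AlgebraicClosure ℚ ≃ₐ[ℚ] AlgebraicClosure ℚ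

variable {k V : Type*} [Field k] [AddCommGroup V] [Module k V]
  [DistribMulAction GQ V] [SMulCommClass GQ k V] [Module.Finite k V]

/-- Under the local conditions, Galois fixes the stable line or acts trivially on the quotient
by it. -/
theorem fix_all_or_fixQuot_all
    (hmin : ∀ H : Subgroup GQ, H.Normal →
      (∃ L : IntermediateField ℚ Qbar, FiniteDimensional ℚ L ∧ L.fixingSubgroup ≤ H) →
      (∀ (q : ℕ), q.Prime → ∀ A : ValuationSubring Qbar, A.LiesOverPrime q →
        A.inertiaSubgroupIn ℚ ≤ H) → H = ⊤)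
    (p : ℕ) (A₀ : ValuationSubring Qbar)
    (hconj : ∀ A : ValuationSubring Qbar, A.LiesOverPrime p → ∃ τ : GQ,
      ∀ σ ∈ A.inertiaSubgroupIn ℚ, τ * σ * τ⁻¹ ∈ A₀.inertiaSubgroupIn ℚ)
    (h2 : Module.finrank k V = 2) (N : Submodule k V)
    (hst : ∀ σ : GQ, ∀ x ∈ N, σ • x ∈ N) (hN0 : N ≠ ⊥) (hN1 : N ≠ ⊤)
    (hlevel : ∃ L : IntermediateField ℚ Qbar, FiniteDimensional ℚ L ∧
      ∀ σ ∈ L.fixingSubgroup, ∀ x : V, σ • x = x)
    (hunip : ∀ q : ℕ, q.Prime → q ≠ p → ∀ A : ValuationSubring Qbar, A.LiesOverPrime q →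
      ∀ σ ∈ A.inertiaSubgroupIn ℚ, ∀ x : V, σ • (σ • x - x) = σ • x - x)
    (H : Submodule k V) (hH : H ≠ ⊤)
    (hp : ∀ σ ∈ A₀.inertiaSubgroupIn ℚ, ∀ x : V, σ • x - x ∈ H) :
    (∀ σ : GQ, ∀ x ∈ N, σ • x = x) ∨ (∀ σ : GQ, ∀ x : V, σ • x - x ∈ N) := by
  obtain ⟨L, hL, hLfix⟩ := hlevel
  have key : ∀ K : Subgroup GQ, K.Normal → fixSub N ⊓ fixQuot N hst ≤ K →
      A₀.inertiaSubgroupIn ℚ ≤ K → K = ⊤ := by
    intro K hK hle hA₀
    refine hmin K hK ⟨L, hL, fun σ hσ => hle ⟨fun x _ => hLfix σ hσ x, fun x => ?_⟩⟩ ?_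
    · rw [hLfix σ hσ x, sub_self]; exact N.zero_mem
    · intro q hq A hA
      by_cases hqp : q = p
      · subst hqp
        intro σ hσ
        obtain ⟨τ, hτ⟩ := hconj A hA
        have h := hK.conj_mem _ (hA₀ (hτ σ hσ)) τ⁻¹
        simpa [mul_assoc] using h
      · exact le_trans (le_fix_of_unipotent h2 N hst hN0 hN1 _ (hunip q hq hqp A hA)) hle
  rcases le_fix_of_le_proper h2 N hst hN0 hN1 H hH _ hp with h | h
  · left
    have htop := key _ (fixSub_normal N hst) inf_le_left h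
    intro σ x hx
    exact (htop ▸ Subgroup.mem_top σ : σ ∈ fixSub N) x hx
  · right
    have htop := key _ (fixQuot_normal N hst) inf_le_right h
    intro σ x
    exact (htop ▸ Subgroup.mem_top σ : σ ∈ fixQuot N hst) x

end Fermat.Agent.EC.Reducible
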