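import Mathlib
import Fermat.Agent.Gal.Frobenius
import Fermat.Agent.Gal.Unramified
import Fermat.Agent.EC.Reducible.Global
import Fermat.Agent.EC.Reducible.Local
import Fermat.Prelude.Def_FLTPrelim_Modularity

/-!
Reducible mod `p` representations of semistable integral Weierstrass curves, `p` odd: the stable
line or the quotient by it carries the trivial Galois action.
-/

set_option autoImplicit false

namespace Fermat.Agent.EC.Reducible

open WeierstrassCurve Fermat.Agent.EC.Reduction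
open scoped WeierstrassCurve.Affine Pointwise

local notation "Qbar" => AlgebraicClosure ℚ
local notation "GQ" => AlgebraicClosure ℚ ≃ₐ[ℚ] AlgebraicClosure ℚ

theorem exists_conj_inertia {p : ℕ} (hp : p.Prime) {A A₀ : ValuationSubring Qbar}
    (hA : A.LiesOverPrime p) (hA₀ : A₀.LiesOverPrime p) :
    ∃ τ : GQ, ∀ σ ∈ A.inertiaSubgroupIn ℚ, τ * σ * τ⁻¹ ∈ A₀.inertiaSubgroupIn ℚ := by
  obtain ⟨τ, hτ⟩ := Gal.exists_smul_eq_of_liesOverPrime hp hA hA₀
  exact ⟨τ, fun σ hσ => hτ ▸ (Gal.mem_inertia_smul_iff τ σ A).mpr hσ⟩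

/-- Minkowski: an open subgroup containing all inertia is everything. -/
theorem eq_top_of_inertia_le_of_open (H : Subgroup GQ)
    (hlevel : ∃ L : IntermediateField ℚ Qbar, FiniteDimensional ℚ L ∧ L.fixingSubgroup ≤ H)
    (h : ∀ (q : ℕ), q.Prime → ∀ A : ValuationSubring Qbar, A.LiesOverPrime q →
      A.inertiaSubgroupIn ℚ ≤ H) : H = ⊤ := by
  obtain ⟨L, hL, hle⟩ := hlevel
  exact Gal.eq_top_of_inertia_le H
    (H.isClosed_of_isOpen (Subgroup.isOpen_mono hle L.fixingSubgroup_isOpen)) h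

/-- For a semistable model and odd `p`, given the local inputs at the places of multiplicative
reduction, Galois fixes a stable line or acts trivially on the quotient by it. -/
theorem fix_line_or_fix_quot
    (W : WeierstrassCurve ℤ) (hΔ : W.Δ ≠ 0) (hW : W.IsSemistableModel)
    (hcomp : ∀ q : ℕ, q.Prime → (q : ℤ) ∣ W.Δ → ¬ (q : ℤ) ∣ W.c₄ →
      ∀ A : ValuationSubring Qbar, A.LiesOverPrime q → ∀ σ ∈ A.inertiaSubgroupIn ℚ,
      ∀ P : ((W.map (Int.castRingHom ℚ))⁄Qbar).Point, W.InZeroComponentAt A (σ • P - P))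
    (hnode : ∀ q : ℕ, q.Prime → (q : ℤ) ∣ W.Δ → ¬ (q : ℤ) ∣ W.c₄ →
      ∀ A : ValuationSubring Qbar, A.LiesOverPrime q →
      ∀ P : ((W.map (Int.castRingHom ℚ))⁄Qbar).Point, W.InZeroComponentAt A P → q • P = 0 →
        RedTo (IsLocalRing.residue A) (redCurve W A) P 0)
    {p : ℕ} (hp : p.Prime) (hp2 : p ≠ 2)
    (N : Submodule (ZMod p) (Submodule.torsionBy ℤ ((W.map (Int.castRingHom ℚ))⁄Qbar).Point p))
    (hst : Affine.Point.IsGaloisStable ℚ N) (hN0 : N ≠ ⊥) (hN1 : N ≠ ⊤) :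
    (∀ σ : GQ, ∀ x ∈ N, σ • x = x) ∨
      (∀ σ : GQ, ∀ x : Submodule.torsionBy ℤ ((W.map (Int.castRingHom ℚ))⁄Qbar).Point p,
        σ • x - x ∈ N) := by
  have : Fact p.Prime := ⟨hp⟩
  have := Torsion.isElliptic_baseChange_map W hΔ Qbar
  have hpK : (p : Qbar) ≠ 0 := Nat.cast_ne_zero.mpr hp.ne_zero
  have := Torsion.moduleFinite_torsionBy (W.map (Int.castRingHom ℚ)) Qbar hpK
  obtain ⟨A₀, hA₀⟩ := Gal.exists_liesOverPrime (L := Qbar) hp
  obtain ⟨L, hL, hLfix⟩ := Torsion.galoisFactorsThroughFiniteLevel_int W hΔ hp.ne_zero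
  have hsub : ∀ (q : ℕ), q.Prime → ∀ A : ValuationSubring Qbar, A.LiesOverPrime q →
      ∀ σ ∈ A.inertiaSubgroupIn ℚ, ∀ P : ((W.map (Int.castRingHom ℚ))⁄Qbar).Point,
        W.InZeroComponentAt A (σ • P - P) := by
    intro q hq A hA σ hσ P
    by_cases hqΔ : (q : ℤ) ∣ W.Δ
    · exact hcomp q hq hqΔ (hW q hq hqΔ) A hA σ hσ P
    · exact inZeroComponentAt_of_good hq hA hqΔ _
  refine fix_all_or_fixQuot_all (fun H _ => eq_top_of_inertia_le_of_open H) p A₀
    (fun A hA => exists_conj_inertia hp hA hA₀)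
    (Torsion.finrank_torsionBy (W.map (Int.castRingHom ℚ)) Qbar hpK) N hst hN0 hN1
    ⟨L, hL, fun σ hσ x => ?_⟩
    (fun q hq hqp A hA => unipotent_of_sub_mem hq hA
      (fun hd => hqp ((Nat.prime_dvd_prime_iff_eq hq hp).mp hd)) (hsub q hq A hA))
    (infSub W A₀ p) (infSub_ne_top hΔ hp hp2 hA₀ N hst hN0 hN1) ?_
  · have h := hLfix σ (fun y hy => (IntermediateField.mem_fixingSubgroup_iff L σ).mp hσ y hy)
    exact DFunLike.congr_fun h x
  · intro σ hσ x
    rw [mem_infSub]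
    by_cases hpΔ : (p : ℤ) ∣ W.Δ
    · refine hnode p hp hpΔ (hW p hp hpΔ) A₀ hA₀ _ (hsub p hp A₀ hA₀ σ hσ _) ?_
      rw [← natCast_zsmul]
      exact (σ • x - x).2
    · exact redTo_smul_sub_self hσ (inZeroComponentAt_of_good hp hA₀ hpΔ _)

end Fermat.Agent.EC.Reducible
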