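import Mathlib
import Fermat.Prelude.Def_FLTPrelim_CofixedLine
import Fermat.Agent.EC.Reducible.ExistsLine
import Fermat.Agent.EC.Reducible.FreyRational
import Fermat.Agent.EC.Reducible.Semistable
import Fermat.Agent.Multiplicative.Qbar
import Fermat.Agent.Multiplicative.Inertia
import Fermat.Agent.EC.Reducible.FreyModel

/-!
A reducible mod `p` representation of the Frey curve has a cofixed line.
-/

set_option autoImplicit false

namespace Fermat.Agent.EC.Reducible

open WeierstrassCurve WeierstrassCurve.Affine.Point Fermat.Agent.EC.Reduction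
open scoped WeierstrassCurve.Affine

local notation "Qbar" => AlgebraicClosure ℚ

/-- A point in the identity component killed by the residue characteristic reduces to infinity
(multiplicative reduction). -/
theorem redTo_zero_of_nsmul_residueChar {W : WeierstrassCurve ℤ} {A : ValuationSubring Qbar}
    {q : ℕ} (h : Multiplicative.MultAt W A q)
    {Q : ((W.map (Int.castRingHom ℚ))⁄Qbar).Point} (hQ : W.InZeroComponentAt A Q)
    (hqQ : q • Q = 0) : RedTo (IsLocalRing.residue A) (redCurve W A) Q 0 := by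
  rcases h.notMem_of_nsmul_q_eq_zero hQ hqQ with rfl | ⟨x, y, hxy, rfl, hx⟩
  · exact RedTo.zero
  · exact RedTo.of_notMem hx

/-- The dichotomy for semistable curves, unconditionally. -/
theorem semistable_fix_line_or_fix_quot (W : WeierstrassCurve ℤ) (hΔ : W.Δ ≠ 0)
    (hW : W.IsSemistableModel) {p : ℕ} (hp : p.Prime) (hp2 : p ≠ 2)
    (N : Submodule (ZMod p) (Submodule.torsionBy ℤ ((W.map (Int.castRingHom ℚ))⁄Qbar).Point p))
    (hst : IsGaloisStable ℚ N) (hN0 : N ≠ ⊥) (hN1 : N ≠ ⊤) :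
    (∀ σ : Qbar ≃ₐ[ℚ] Qbar, ∀ x ∈ N, σ • x = x) ∨
      (∀ σ : Qbar ≃ₐ[ℚ] Qbar,
        ∀ x : Submodule.torsionBy ℤ ((W.map (Int.castRingHom ℚ))⁄Qbar).Point p, σ • x - x ∈ N) :=
  fix_line_or_fix_quot W hΔ hW
    (fun _ hq hd hc _ hA _ hσ Q =>
      (Multiplicative.MultAt.mk hq hA hd hc hΔ).smul_sub_inZeroComponentAt hσ Q)
    (fun _ hq hd hc _ hA _ hQ hqQ =>
      redTo_zero_of_nsmul_residueChar (Multiplicative.MultAt.mk hq hA hd hc hΔ) hQ hqQ)
    hp hp2 N hst hN0 hN1

/-- A reducible mod `p` representation of the Frey curve has a cofixed line. -/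
theorem frey_cofixed (P : FreyPackage)
    (hred : ¬ GaloisRepIsIrreducible (K := Qbar) ℚ P.freyCurve P.p) :
    HasGaloisStableCofixedLine (K := Qbar) ℚ P.freyCurve P.p := by
  rw [freyCurve_eq_map P] at hred ⊢
  have hΔ := freyCurveInt_Δ_ne_zero P
  have hss := freyCurveInt_isSemistableModel P
  have h2 : ((2 : ℕ) : ℤ) ∣ P.freyCurveInt.Δ := by exact_mod_cast two_dvd_freyCurveInt_Δ P
  obtain ⟨N, hst, hN0, hN1⟩ := exists_stable_line P.freyCurveInt hΔ P.pp hred
  rcases semistable_fix_line_or_fix_quot P.freyCurveInt hΔ hss P.pp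
      (by have := P.hp5; omega) N hst hN0 hN1 with h | h
  · exfalso
    obtain ⟨x, hx, hx0⟩ := Submodule.exists_mem_ne_zero_of_ne_bot hN0
    have hxp : P.p • (x : ((P.freyCurveInt.map (Int.castRingHom ℚ))⁄Qbar).Point) = 0 := by
      rw [← natCast_zsmul]; exact x.2
    refine no_rational_torsion P (fun A hA Q hfix hQ => ?_) x (fun h0 => hx0 (Subtype.ext h0)) hxp
      (fun σ => congrArg Subtype.val (h σ x hx))
    exact (Multiplicative.MultAt.mk Nat.prime_two hA h2 (hss 2 Nat.prime_two h2) hΔ)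
      |>.inZeroComponentAt_of_rational ((P.pp.coprime_iff_not_dvd).mpr (not_p_dvd_val_two_Δ P))
        hfix hQ
  · exact ⟨N, hst, hN0, hN1, h⟩

end Fermat.Agent.EC.Reducible
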