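import Fermat.Agent.EC.Reducible.FreyTower
import Fermat.Agent.S10
import Fermat.Agent.S11
import Fermat.Agent.S13

/-!
Irreducibility of the mod `p` representation of a Frey curve from the key step.
-/

set_option autoImplicit false

namespace Fermat.Agent.EC.Reducible

open WeierstrassCurve WeierstrassCurve.Affine.Point

/-- The mod `p` representation of a Frey curve is irreducible, given the key step. -/
theorem frey_irreducible (h15 : InputS15) (P : FreyPackage) :
    GaloisRepIsIrreducible (K := AlgebraicClosure ℚ) ℚ P.freyCurve P.p := by
  by_contra hred
  have h := S13.result P hred
  have h5 := P.hp5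
  by_cases h17 : 17 ≤ P.p
  · exact frey_no_cofixed_large h15 P h17 h
  by_cases h11 : P.p = 11
  · exact S11.result P h11 h
  refine S10.result P ?_ h
  have hp := P.pp
  interval_cases hn : P.p <;> simp_all (config := { decide := true })

end Fermat.Agent.EC.Reducible
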