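import Fermat.Agent.EC.Reducible.TowerExt
import Fermat.Agent.EC.Reducible.FreyModel
import Fermat.Agent.Conductor.Quadratic
import Fermat.Agent.Conductor.PointBound
import Fermat.Agent.S14

/-!
No semistable curve with bad reduction at `2` has a Galois stable line of `p`-torsion with trivial
quotient (`p ≥ 17`), given the key step: Frobenius at a good prime would have trace `ℓ + 1`.
-/

set_option autoImplicit false

noncomputable section

namespace Fermat.Agent.EC.Reducible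

open WeierstrassCurve WeierstrassCurve.Affine.Point
open scoped WeierstrassCurve.Affine

local notation "Qbar" => AlgebraicClosure ℚ
local notation "GQ" => (AlgebraicClosure ℚ ≃ₐ[ℚ] AlgebraicClosure ℚ)
local notation "EQ" W => ((WeierstrassCurve.map W (Int.castRingHom ℚ))⁄(AlgebraicClosure ℚ))

variable {W : WeierstrassCurve ℤ} {p : ℕ} [Fact p.Prime]

theorem exists_pow_nsmul_eq (hΔ : W.Δ ≠ 0) (L : CofixedLine W p) :
    ∀ k : ℕ, ∃ y : (EQ W).Point, p ^ k • y = L.e
  | 0 => ⟨L.e, by simp⟩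
  | k + 1 => by
    obtain ⟨y, hy⟩ := exists_pow_nsmul_eq hΔ L k
    have hy' : p ^ (k + 1) • y = 0 := by rw [pow_succ', mul_nsmul', hy, L.e_torsion]
    obtain ⟨z, hz⟩ := exists_nsmul_eq hΔ hy'
    exact ⟨z, by rw [pow_succ, mul_nsmul', hz, hy]⟩

theorem Level.pow_dvd_of_zsmul_mem {L : CofixedLine W p} {k : ℕ} (v : Level L k)
    {y : (EQ W).Point} (hy : p ^ k • y = L.e) {n : ℤ} (hn : n • y ∈ v.C) :
    (p : ℤ) ^ (k + 1) ∣ n := by
  suffices ∀ j, j ≤ k + 1 → (p : ℤ) ^ j ∣ n from this (k + 1) le_rfl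
  intro j
  induction j with
  | zero => intro _; simp
  | succ j ih =>
    intro hj
    obtain ⟨m, rfl⟩ := ih (by omega)
    rw [pow_succ]
    refine mul_dvd_mul_left _ ?_
    by_contra hm
    have hme : m • L.e ∈ v.C := by
      have h := AddSubgroup.nsmul_mem _ hn (p ^ (k - j))
      have e : p ^ (k - j) • (((p : ℤ) ^ j * m) • y) = m • L.e := by
        rw [← natCast_zsmul, ← mul_zsmul', ← hy, ← natCast_zsmul y (p ^ k), ← mul_zsmul']
        congr 1
        push_cast
        conv_rhs => rw [← Nat.sub_add_cancel (show j ≤ k by omega), pow_add]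
        ring
      rwa [e] at h
    obtain ⟨u, w, huw⟩ := ((Nat.prime_iff_prime_int.mp Fact.out).coprime_iff_not_dvd.mpr hm :
      IsCoprime (p : ℤ) m)
    refine L.e_notMem (v.mem_line_of_mem ?_ L.e_torsion)
    have : L.e = w • (m • L.e) := by
      conv_lhs => rw [← one_zsmul L.e, ← huw, add_zsmul]
      rw [mul_zsmul, natCast_zsmul, L.e_torsion, zsmul_zero, zero_add, mul_zsmul]
    rw [this]
    exact AddSubgroup.zsmul_mem _ hme w

theorem not_cofixedLine (hΔ : W.Δ ≠ 0) (hss : W.IsSemistableModel) (hp : 17 ≤ p)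
    (h2 : (2 : ℤ) ∣ W.Δ) (h15 : InputS15) (L : CofixedLine W p) : False := by
  classical
  have hp' : p.Prime := Fact.out
  obtain ⟨ℓ, hℓle, hℓ⟩ := Nat.exists_infinite_primes (max W.Δ.natAbs p + 1)
  have hgood : ¬ (ℓ : ℤ) ∣ W.Δ := fun hd => by
    have := Nat.le_of_dvd (Int.natAbs_pos.mpr hΔ) (Int.natCast_dvd.mp hd)
    omega
  have hℓp : ℓ ≠ p := by omega
  obtain ⟨A, hA⟩ := Gal.exists_liesOverPrime (L := Qbar) hℓ
  obtain ⟨σ, hσ⟩ := Gal.exists_isFrobeniusAt hℓ hA
  have key : ∀ k : ℕ, (p : ℤ) ^ (k + 1) ∣ 1 - W.apOfModel ℓ + ℓ := by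
    intro k
    obtain ⟨v⟩ := nonempty_level hΔ hss hp h2 L h15 (S14.result (by omega)) k
    obtain ⟨y, hy⟩ := exists_pow_nsmul_eq hΔ L k
    have hyt : p ^ (k + 1) • y = 0 := by rw [pow_succ', mul_nsmul', hy, L.e_torsion]
    have hq := Conductor.frobenius_quadratic hℓ hgood
      (fun hd => hℓp ((Nat.prime_dvd_prime_iff_eq hℓ hp').mp (hℓ.dvd_of_dvd_pow hd))) hA hσ hyt
    have h1 := smul_sub_mem_level hΔ hss hp h2 L v h15 σ y hyt
    have h3 : σ • σ • y - y ∈ v.C := by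
      have := AddSubgroup.add_mem _ (v.smul_mem σ h1) h1
      rwa [smul_sub', sub_add_sub_cancel] at this
    refine v.pow_dvd_of_zsmul_mem hy ?_
    have e : (1 - W.apOfModel ℓ + (ℓ : ℤ)) • y =
        (σ • σ • y - W.apOfModel ℓ • (σ • y) + (ℓ : ℤ) • y) -
          ((σ • σ • y - y) - W.apOfModel ℓ • (σ • y - y)) := by
      rw [add_zsmul, sub_zsmul', one_zsmul, zsmul_sub]
      abel
    rw [e, hq, zero_sub]
    exact AddSubgroup.neg_mem _ (AddSubgroup.sub_mem _ h3 (AddSubgroup.zsmul_mem _ h1 _))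
  refine (Conductor.apOfModel_ne W hℓ).1 ?_
  have hzero : 1 - W.apOfModel ℓ + (ℓ : ℤ) = 0 := by
    by_contra hne
    have h := Int.natAbs_dvd_natAbs.mpr (key (1 - W.apOfModel ℓ + (ℓ : ℤ)).natAbs)
    rw [Int.natAbs_pow, Int.natAbs_natCast] at h
    have h' := Nat.le_of_dvd (Int.natAbs_pos.mpr hne) h
    have := Nat.lt_pow_self (n := (1 - W.apOfModel ℓ + (ℓ : ℤ)).natAbs + 1) hp'.one_lt
    omega
  linarith

/-- The Frey curve has no cofixed line at `p ≥ 17`, given the key step. -/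
theorem frey_no_cofixed_large (h15 : InputS15) (P : FreyPackage) (hp : 17 ≤ P.p) :
    ¬ HasGaloisStableCofixedLine (K := AlgebraicClosure ℚ) ℚ P.freyCurve P.p := by
  intro h
  have : Fact P.p.Prime := ⟨P.pp⟩
  rw [freyCurve_eq_map] at h
  obtain ⟨L⟩ := exists_cofixedLine P.freyCurveInt (freyCurveInt_Δ_ne_zero P) (by omega) h
  exact not_cofixedLine (freyCurveInt_Δ_ne_zero P) (freyCurveInt_isSemistableModel P) hp
    (two_dvd_freyCurveInt_Δ P) h15 L

end Fermat.Agent.EC.Reducible
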