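import Fermat.Agent.EC.Reducible.FreyCofixed
import Fermat.Agent.EC.Frobenius.DetCyclotomic
import Fermat.Prelude.Def_FreyPackage_DetCyclotomic

/-!
A Galois stable line with trivial quotient, as a pair of points: Galois acts on the line through
the cyclotomic character.
-/

set_option autoImplicit false

namespace Fermat.Agent.EC.Reducible

open WeierstrassCurve WeierstrassCurve.Affine.Point
open scoped WeierstrassCurve.Affine

local notation "Qbar" => AlgebraicClosure ℚ
local notation "GQ" => (AlgebraicClosure ℚ ≃ₐ[ℚ] AlgebraicClosure ℚ)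
local notation "EQ" W => ((WeierstrassCurve.map W (Int.castRingHom ℚ))⁄(AlgebraicClosure ℚ))

/-- A point spanning a Galois stable line of `E[p]` with trivial quotient, and a complement. -/
structure CofixedLine (W : WeierstrassCurve ℤ) (p : ℕ) [Fact p.Prime] where
  c : (EQ W).Point
  e : (EQ W).Point
  c_torsion : p • c = 0
  c_ne : c ≠ 0
  e_torsion : p • e = 0
  e_notMem : e ∉ AddSubgroup.zmultiples c
  span : ∀ x : (EQ W).Point, p • x = 0 → ∃ i j : ℤ, x = i • c + j • e
  smul_c : ∀ σ : GQ, σ • c = ExtCitation.cycloExp p σ • c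
  sub_mem : ∀ σ : GQ, ∀ x : (EQ W).Point, p • x = 0 → σ • x - x ∈ AddSubgroup.zmultiples c
  exists_not_infty : ∀ A : ValuationSubring Qbar, A.LiesOverPrime p →
    ∃ x : (EQ W).Point, p • x = 0 ∧
      ¬ Reduction.RedTo (IsLocalRing.residue A) (redCurve W A) x 0

/-- A Galois stable line with trivial quotient gives line data, for `p ≠ 2`. -/
theorem exists_cofixedLine (W : WeierstrassCurve ℤ) (hΔ : W.Δ ≠ 0) {p : ℕ} [Fact p.Prime]
    (hp2 : p ≠ 2)
    (h : HasGaloisStableCofixedLine (K := Qbar) ℚ (W.map (Int.castRingHom ℚ)) p) :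
    Nonempty (CofixedLine W p) := by
  obtain ⟨N, hst, hN0, hN1, hcof⟩ := h
  have hp : p.Prime := Fact.out
  have : NeZero p := ⟨hp.ne_zero⟩
  have := Torsion.isElliptic_baseChange_map W hΔ Qbar
  have hpK : (p : Qbar) ≠ 0 := Nat.cast_ne_zero.mpr hp.ne_zero
  have := Torsion.moduleFinite_torsionBy (W.map (Int.castRingHom ℚ)) Qbar hpK
  have h2 := Torsion.finrank_torsionBy (W.map (Int.castRingHom ℚ)) Qbar hpK
  obtain ⟨c, hc, hc0⟩ := Submodule.exists_mem_ne_zero_of_ne_bot hN0
  obtain ⟨e, he⟩ : ∃ e, e ∉ N := by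
    by_contra hcon
    push Not at hcon
    exact hN1 (Submodule.eq_top_iff'.mpr hcon)
  have hli : LinearIndependent (ZMod p) ![c, e] := by
    rw [LinearIndependent.pair_iff]
    intro a b hab
    have hb : b = 0 := by
      by_contra hb
      refine he ?_
      have : b • e ∈ N := by
        rw [eq_neg_of_add_eq_zero_right hab]
        exact N.neg_mem (N.smul_mem a hc)
      simpa [smul_smul, inv_mul_cancel₀ hb] using N.smul_mem b⁻¹ this
    refine ⟨?_, hb⟩
    rw [hb, zero_smul, add_zero] at hab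
    exact (smul_eq_zero.mp hab).resolve_right hc0
  let B := basisOfLinearIndependentOfCardEqFinrank hli (by rw [Fintype.card_fin]; exact h2.symm)
  have hB : ∀ i, B i = ![c, e] i := fun i => by
    simp only [B, coe_basisOfLinearIndependentOfCardEqFinrank]
  have hzs : ∀ (a : ZMod p) (x : Submodule.torsionBy ℤ ((W.map (Int.castRingHom ℚ))⁄Qbar).Point p),
      ((a • x : Submodule.torsionBy ℤ ((W.map (Int.castRingHom ℚ))⁄Qbar).Point p) : (EQ W).Point) =
        a.val • (x : (EQ W).Point) := fun a x => by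
    conv_lhs => rw [← ZMod.natCast_zmod_val a, Nat.cast_smul_eq_nsmul]
    rfl
  have hexp : ∀ x, ∃ a b : ZMod p, x = a • c + b • e := fun x => by
    refine ⟨B.repr x 0, B.repr x 1, ?_⟩
    conv_lhs => rw [← B.sum_repr x]
    simp [Fin.sum_univ_two, hB]
  have hNc : ∀ x ∈ N, ∃ a : ZMod p, x = a • c := by
    intro x hx
    obtain ⟨a, b, rfl⟩ := hexp x
    refine ⟨a, ?_⟩
    have hb : b = 0 := by
      by_contra hb
      refine he ?_
      have : b • e ∈ N := by simpa using N.sub_mem hx (N.smul_mem a hc)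
      simpa [smul_smul, inv_mul_cancel₀ hb] using N.smul_mem b⁻¹ this
    simp [hb]
  have hpt : ∀ x : (EQ W).Point, p • x = 0 →
      x ∈ Submodule.torsionBy ℤ ((W.map (Int.castRingHom ℚ))⁄Qbar).Point p := fun x hx => by
    rw [Submodule.mem_torsionBy_iff, natCast_zsmul]; exact hx
  have htor : ∀ x : Submodule.torsionBy ℤ ((W.map (Int.castRingHom ℚ))⁄Qbar).Point p,
      p • (x : (EQ W).Point) = 0 := fun x => by rw [← natCast_zsmul]; exact x.2
  have hmem : ∀ x ∈ N, (x : (EQ W).Point) ∈ AddSubgroup.zmultiples (c : (EQ W).Point) := by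
    intro x hx
    obtain ⟨a, rfl⟩ := hNc x hx
    rw [hzs]
    exact AddSubgroup.nsmul_mem _ (AddSubgroup.mem_zmultiples _) _
  refine ⟨⟨c, e, htor c, fun h0 => hc0 (Subtype.ext h0), htor e, fun hmem' => he ?_,
    fun x hx => ?_, fun σ => ?_, fun σ x hx => hmem _ (hcof σ ⟨x, hpt x hx⟩), fun A hA => ?_⟩⟩
  · obtain ⟨i, hi⟩ := AddSubgroup.mem_zmultiples_iff.mp hmem'
    have : e = i • c := Subtype.ext hi.symm
    rw [this]
    exact zsmul_mem hc i
  · obtain ⟨a, b, hab⟩ := hexp ⟨x, hpt x hx⟩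
    refine ⟨(a.val : ℤ), (b.val : ℤ), ?_⟩
    rw [natCast_zsmul, natCast_zsmul]
    have h1 := congrArg Subtype.val hab
    simp only [Submodule.coe_add, hzs] at h1
    exact h1
  · obtain ⟨a, ha⟩ := hNc _ (hst σ c hc)
    obtain ⟨m, hm⟩ := hNc _ (hcof σ e)
    set f := galoisRepModuleEnd (K := Qbar) ℚ (W.map (Int.castRingHom ℚ)).toAffine p σ
    have hdet : LinearMap.det f = a := by
      rw [← LinearMap.det_toMatrix B, Matrix.det_fin_two]
      have e1 : f (B 0) = a • B 0 := by rw [hB]; exact ha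
      have e2 : f (B 1) = m • B 0 + B 1 := by
        rw [hB, hB]; exact sub_eq_iff_eq_add.mp hm
      simp only [LinearMap.toMatrix_apply, e1, e2, map_smul, map_add, Module.Basis.repr_self]
      simp
    have hn := IsAlgClosed.card_rootsOfUnity_eq Qbar p
    have hcyc := Frobenius.galoisRepDetEqCyclotomic_intModel W hΔ p hn σ
    have hv := congrArg (fun u : (ZMod p)ˣ => (u : ZMod p)) hcyc
    simp only [Frobenius.coe_galoisRepDet] at hv
    rw [hdet] at hv
    show σ • (c : (EQ W).Point) = _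
    have h1 := congrArg Subtype.val ha
    rw [hzs] at h1
    rw [ExtCitation.cycloExp, ← hv]
    exact h1
  · have hne := infSub_ne_top hΔ hp hp2 hA N hst hN0 hN1
    obtain ⟨x, hx⟩ : ∃ x, x ∉ infSub W A p := by
      by_contra hcon
      push Not at hcon
      exact hne (Submodule.eq_top_iff'.mpr hcon)
    exact ⟨x, htor x, hx⟩

end Fermat.Agent.EC.Reducible
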