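import Fermat.Agent.Conductor.Inertia
import Fermat.Agent.Gal.Frobenius
import Fermat.Prelude.Def_ExtCitation_KummerBridge

/-!
Local facts for the tower of cyclic subgroups: points fixed by Frobenius at small primes, torsion
near the residue characteristic, and the cyclotomic exponent at Frobenius and inertia.
-/

set_option autoImplicit false

namespace Fermat.Agent.EC.Reducible

open WeierstrassCurve Fermat.Agent.EC.Reduction Fermat.Agent.Multiplicative
open scoped WeierstrassCurve.Affine

local notation "Qbar" => AlgebraicClosure ℚ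
local notation "GQ" => (AlgebraicClosure ℚ ≃ₐ[ℚ] AlgebraicClosure ℚ)
local notation "EQ" W => ((WeierstrassCurve.map W (Int.castRingHom ℚ))⁄(AlgebraicClosure ℚ))

variable {W : WeierstrassCurve ℤ} {A : ValuationSubring (AlgebraicClosure ℚ)}

theorem smul_nsmul' (σ : GQ) (n : ℕ) (P : (EQ W).Point) : σ • (n • P) = n • (σ • P) :=
  (Affine.Point.map σ.toAlgHom).map_nsmul n P

theorem smul_add' (σ : GQ) (P Q : (EQ W).Point) : σ • (P + Q) = σ • P + σ • Q :=
  (Affine.Point.map σ.toAlgHom).map_add P Q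

theorem smul_sub' (σ : GQ) (P Q : (EQ W).Point) : σ • (P - Q) = σ • P - σ • Q :=
  (Affine.Point.map σ.toAlgHom).map_sub P Q

theorem smul_zsmul' (σ : GQ) (n : ℤ) (P : (EQ W).Point) : σ • (n • P) = n • (σ • P) :=
  (Affine.Point.map σ.toAlgHom).map_zsmul n P

theorem smul_zero' (σ : GQ) : σ • (0 : (EQ W).Point) = 0 :=
  (Affine.Point.map σ.toAlgHom).map_zero

/-- A point of large prime order fixed by Frobenius at a small prime misses the identity
component. -/
theorem not_inZero_of_frobenius_fixed {ℓ p : ℕ} (hℓ : ℓ.Prime) (hp : p.Prime)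
    (hsmall : ℓ ^ 2 + 1 < p) (hA : A.LiesOverPrime ℓ) {σ : GQ} (hσ : A.IsFrobeniusAt σ ℓ)
    {Q : (EQ W).Point} (hQp : p • Q = 0) (hQ0 : Q ≠ 0) (hfix : σ • Q = Q) :
    ¬ W.InZeroComponentAt A Q := by
  classical
  intro hQ
  set π := IsLocalRing.residue A
  set W₀ := redCurve W A
  have hred := reduces_intModel (K := Qbar) W π
  have hlt : ℓ < p :=
    lt_of_le_of_lt (le_trans (Nat.le_self_pow two_ne_zero ℓ) (Nat.le_succ _)) hsmall
  have hpk : (p : IsLocalRing.ResidueField A) ≠ 0 :=
    natCast_ne_zero_of_liesOverPrime π hℓ hA fun h =>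
      hlt.ne ((Nat.prime_dvd_prime_iff_eq hℓ hp).mp h)
  obtain ⟨R, hR⟩ := (inZeroComponentAt_iff W A Q).mp hQ
  set roots :=
    Polynomial.nthRootsFinset (ℓ - 1) (1 : IsLocalRing.ResidueField A) ∪ {0}
  have hroots : roots.card ≤ ℓ := by
    refine (Finset.card_union_le _ _).trans ?_
    rw [Polynomial.nthRootsFinset_def, Finset.card_singleton]
    have := (Multiset.toFinset_card_le
      (Polynomial.nthRoots (ℓ - 1) (1 : IsLocalRing.ResidueField A))).trans
        (Polynomial.card_nthRoots _ _)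
    have := hℓ.one_lt
    omega
  have hmemroots : ∀ z : IsLocalRing.ResidueField A, z ^ ℓ = z → z ∈ roots := by
    intro z hz
    by_cases h0 : z = 0
    · simp [roots, h0]
    refine Finset.mem_union_left _ ((Polynomial.mem_nthRootsFinset (by
      have := hℓ.one_lt; omega) _).mpr (mul_left_cancel₀ h0 ?_))
    rw [← pow_succ', Nat.sub_add_cancel hℓ.one_lt.le, hz, mul_one]
  let C : Finset (Option (IsLocalRing.ResidueField A × IsLocalRing.ResidueField A)) :=
    insert none ((roots ×ˢ roots).image some)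
  let g : W₀.toAffine.Point → Option (IsLocalRing.ResidueField A × IsLocalRing.ResidueField A) :=
    fun R => match R with
      | .zero => none
      | .some x y _ => some (x, y)
  have hg : Function.Injective g := by
    rintro (_ | ⟨x, y, h⟩) (_ | ⟨x', y', h'⟩) e
    · rfl
    · exact Option.noConfusion rfl (heq_of_eq e)
    · exact Option.noConfusion rfl (heq_of_eq e)
    · obtain ⟨rfl, rfl⟩ : x = x' ∧ y = y' := by simpa [g] using e
      rfl
  have hf : ∀ j : ℕ, RedTo π W₀ (j • Q) (j • R) := fun j => hR.nsmul hred j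
  have hfixj : ∀ j : ℕ, σ • (j • Q) = j • Q := fun j => by rw [smul_nsmul', hfix]
  have hmem : ∀ j : ℕ, g (j • R) ∈ C := by
    intro j
    have hm := hf j
    have hs := hfixj j
    generalize j • R = R' at hm
    generalize j • Q = Q' at hm hs
    rcases Q' with _ | ⟨x, y, h⟩
    · rw [show R' = 0 from hm]
      exact Finset.mem_insert_self _ _
    rcases hm with ⟨-, h0⟩ | ⟨x₀, y₀, h₀, hx, hy, h0⟩
    · rw [h0]
      exact Finset.mem_insert_self _ _
    rw [h0]
    simp only [WeierstrassCurve.Affine.Point.algEquiv_smul_def,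
      WeierstrassCurve.Affine.Point.map_some] at hs
    injection hs with e1 e2
    have e1' : σ x = x := e1
    have e2' : σ y = y := e2
    refine Finset.mem_insert_of_mem (Finset.mem_image_of_mem some (Finset.mem_product.mpr
      ⟨hmemroots _ ?_, hmemroots _ ?_⟩))
    · exact ((e1' ▸ res_frobenius hσ hx).unique hx)
    · exact ((e2' ▸ res_frobenius hσ hy).unique hy)
  have hinj : Set.InjOn (fun j => g (j • R)) (Finset.range p : Set ℕ) := by
    intro i hi j hj hij
    have hij' : i • R = j • R := hg hij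
    have hk : ∀ m : ℕ, p • (m • Q) = 0 := fun m => by rw [smul_comm, hQp, nsmul_zero]
    have h := eq_of_redTo_of_nsmul_eq_zero hred (hf i) (hij' ▸ hf j) hpk (hk i) (hk j)
    have hord : addOrderOf Q = p := by
      have : Fact p.Prime := ⟨hp⟩
      exact addOrderOf_eq_prime hQp hQ0
    exact nsmul_injOn_Iio_addOrderOf (by simpa [hord] using hi) (by simpa [hord] using hj) h
  have hcard := Finset.card_le_card_of_injOn (s := Finset.range p) (t := C)
    (fun j => g (j • R)) (fun j _ => hmem j) hinj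
  rw [Finset.card_range] at hcard
  have h1 : C.card ≤ roots.card * roots.card + 1 := by
    refine (Finset.card_insert_le _ _).trans (Nat.add_le_add_right ?_ 1)
    exact Finset.card_image_le.trans (Finset.card_product _ _).le
  have h2 : roots.card * roots.card ≤ ℓ ^ 2 := by
    rw [sq]; exact Nat.mul_le_mul hroots hroots
  omega

/-- At multiplicative reduction, `p`-power torsion of the identity component at `A ∣ p` reduces to
infinity. -/
theorem redTo_zero_of_mult {p : ℕ} (h : MultAt W A p) {P : (EQ W).Point}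
    (hP : W.InZeroComponentAt A P) {j : ℕ} (hj : p ^ j • P = 0) :
    RedTo (IsLocalRing.residue A) (redCurve W A) P 0 := by
  rcases P with _ | ⟨x, y, hxy⟩
  · exact RedTo.zero
  let S : h.node.E0 := ⟨.some x y hxy, (h.inZeroComponentAt_iff_mem_E0 _).1 hP⟩
  have hS : p ^ j • S = 0 := Subtype.ext (by simpa [S] using hj)
  have : Fact p.Prime := ⟨h.prime⟩
  have := charP_of_liesOverPrime (IsLocalRing.residue A) h.prime h.liesOver
  have hz : (h.red S).toMul = 1 := by
    have e : (h.red S).toMul ^ p ^ j = 1 := by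
      rw [← toMul_nsmul, ← map_nsmul, hS, map_zero, toMul_zero]
    refine sub_eq_zero.mp (eq_zero_of_pow_eq_zero (n := p ^ j) ?_)
    rw [sub_pow_char_pow, e, one_pow, sub_self]
  have hlt := (h.red_eq_zero_iff S).1 (Additive.toMul.injective (by simpa using hz))
  have hgood : 1 ≤ A.valuation (h.node.X x) := h.node.mem_E0.1 S.2
  have hgt : 1 < A.valuation (h.node.X x) :=
    (phi_sub_one_lt_iff h.node.ha (h.node.onNode hxy.left) hgood).1 hlt
  refine RedTo.of_notMem fun hx => ?_
  rw [h.node.v_X] at hgt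
  exact absurd hgt (not_lt.2 (Valuation.map_sub_le _ ((A.valuation_le_one_iff x).2 hx) h.node.hr))

/-- At `A ∣ p` inertia moves `p`-power torsion into the points reducing to infinity. -/
theorem redTo_inertia_sub (hΔ : W.Δ ≠ 0) (hss : W.IsSemistableModel) {p : ℕ} (hp : p.Prime)
    (hA : A.LiesOverPrime p) {σ : GQ} (hσ : σ ∈ A.inertiaSubgroupIn ℚ) {P : (EQ W).Point} {j : ℕ}
    (hj : p ^ j • P = 0) : RedTo (IsLocalRing.residue A) (redCurve W A) (σ • P - P) 0 := by
  by_cases hpΔ : (p : ℤ) ∣ W.Δ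
  · refine redTo_zero_of_mult ⟨hp, hA, hpΔ, hss p hp hpΔ, hΔ⟩
      (Conductor.sub_inZeroComponentAt hΔ hss hp hA hσ P) (j := j) ?_
    rw [nsmul_sub, ← smul_nsmul', hj, smul_zero', sub_zero]
  · exact redTo_smul_sub_self hσ (inZeroComponentAt_of_good hp hA hpΔ P)

theorem cycloExp_frobenius {p ℓ : ℕ} [Fact p.Prime] (hℓ : ℓ.Prime) (hℓp : ℓ ≠ p)
    (hA : A.LiesOverPrime ℓ) {σ : GQ} (hσ : A.IsFrobeniusAt σ ℓ) :
    (ExtCitation.cycloExp p σ : ZMod p) = ℓ := by
  have : NeZero p := ⟨(Fact.out : p.Prime).ne_zero⟩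
  have hdvd : ¬ ℓ ∣ p := fun h => hℓp ((Nat.prime_dvd_prime_iff_eq hℓ Fact.out).mp h)
  rw [← ExtCitation.coe_cycloChar]
  refine (modularCyclotomicCharacter.unique Qbar (ExtCitation.card_rootsOfUnity_eq_self p)
    (σ : Qbar ≃+* Qbar) fun t ht => ?_).symm
  have htt : (t : Qbar) ^ p = 1 := by
    rw [← Units.val_pow_eq_pow_val, (mem_rootsOfUnity p t).mp ht, Units.val_one]
  change σ (t : Qbar) = _
  rw [Gal.apply_rootOfUnity_of_isFrobeniusAt hσ hℓ hA hdvd htt, ZMod.val_natCast]
  exact pow_eq_pow_mod ℓ htt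

/-- The cyclotomic exponent is trivial on inertia away from `p`. -/
theorem cycloExp_inertia {p ℓ : ℕ} [Fact p.Prime] (hℓ : ℓ.Prime) (hℓp : ℓ ≠ p)
    (hA : A.LiesOverPrime ℓ) {σ : GQ} (hσ : σ ∈ A.inertiaSubgroupIn ℚ) :
    (ExtCitation.cycloExp p σ : ZMod p) = 1 := by
  have : NeZero p := ⟨(Fact.out : p.Prime).ne_zero⟩
  have : Fact (1 < p) := ⟨(Fact.out : p.Prime).one_lt⟩
  have hdvd : ¬ ℓ ∣ p := fun h => hℓp ((Nat.prime_dvd_prime_iff_eq hℓ Fact.out).mp h)
  rw [← ExtCitation.coe_cycloChar]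
  refine (modularCyclotomicCharacter.unique Qbar (ExtCitation.card_rootsOfUnity_eq_self p)
    (σ : Qbar ≃+* Qbar) fun t ht => ?_).symm
  have htt : (t : Qbar) ^ p = 1 := by
    rw [← Units.val_pow_eq_pow_val, (mem_rootsOfUnity p t).mp ht, Units.val_one]
  change σ (t : Qbar) = _
  rw [GalRep.inertia_apply_rootOfUnity hℓ hdvd hA hσ htt, ZMod.val_one, pow_one]

end Fermat.Agent.EC.Reducible
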