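import Fermat.Agent.EC.Reducible.LineData
import Fermat.Agent.EC.Reducible.TowerLocal
import Fermat.Agent.EC.Quotient.IntModel
import Fermat.Agent.Gal.Unramified
import Mathlib.GroupTheory.QuotientGroup.Basic

/-!
A cofixed line grows to Galois stable cyclic subgroups of every `p`-power order: the statements of
the key step (S15) and of the vanishing of extensions (S14) feed an induction.
-/

set_option autoImplicit false

noncomputable section

namespace Fermat.Agent.EC.Reducible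

open WeierstrassCurve Fermat.Agent.EC.Reduction Fermat.Agent.Multiplicative
open scoped WeierstrassCurve.Affine

local notation "Qbar" => AlgebraicClosure ℚ
local notation "GQ" => (AlgebraicClosure ℚ ≃ₐ[ℚ] AlgebraicClosure ℚ)
local notation "EQ" W => ((WeierstrassCurve.map W (Int.castRingHom ℚ))⁄(AlgebraicClosure ℚ))

/-- The statement of S15. -/
def InputS15 : Prop :=
  ∀ {p : ℕ}, p.Prime → p ∉ ({2, 3, 5, 7, 13} : Finset ℕ) →
    ∀ W : WeierstrassCurve ℤ, W.Δ ≠ 0 →
    ∀ Q : ((W.map (Int.castRingHom ℚ))⁄(AlgebraicClosure ℚ)).Point,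
    (∀ σ : AlgebraicClosure ℚ ≃ₐ[ℚ] AlgebraicClosure ℚ, σ • Q = Q) → addOrderOf Q = p →
    (2 : ℤ) ∣ W.Δ → ¬ (2 : ℤ) ∣ W.c₄ →
    (∀ A : ValuationSubring (AlgebraicClosure ℚ),
      A.LiesOverPrime 2 → ¬ W.InZeroComponentAt A Q) →
    (3 : ℤ) ∣ W.Δ → ¬ (3 : ℤ) ∣ W.c₄ →
    (∀ A : ValuationSubring (AlgebraicClosure ℚ),
      A.LiesOverPrime 3 → ¬ W.InZeroComponentAt A Q) →
    ∀ {ℓ : ℕ}, ℓ.Prime → ℓ ≠ p → (ℓ : ℤ) ∣ W.Δ → ¬ (ℓ : ℤ) ∣ W.c₄ →
    ∀ A : ValuationSubring (AlgebraicClosure ℚ), A.LiesOverPrime ℓ →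
    ¬ W.InZeroComponentAt A Q

variable {W : WeierstrassCurve ℤ} {p : ℕ} [Fact p.Prime]

theorem zsmul_nsmul_comm (i : ℤ) (n : ℕ) (x : (EQ W).Point) : i • (n • x) = n • (i • x) := by
  rw [← natCast_zsmul, ← natCast_zsmul, ← mul_zsmul', ← mul_zsmul', mul_comm]

theorem sub_zsmul' (m n : ℤ) (x : (EQ W).Point) : (m - n) • x = m • x - n • x := by
  rw [sub_zsmul, ← sub_eq_add_neg]

local instance smulCommZN : SMulCommClass ℤ ℕ (EQ W).Point := ⟨zsmul_nsmul_comm⟩

local instance smulCommNZ : SMulCommClass ℕ ℤ (EQ W).Point :=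
  ⟨fun n i x => (zsmul_nsmul_comm i n x).symm⟩

/-- A level of the tower. -/
structure Level (L : CofixedLine W p) (k : ℕ) where
  c : (EQ W).Point
  pow_c : p ^ k • c = L.c
  stable : ∀ σ : GQ, ∃ b : ℤ, σ • c = b • c

/-- The bottom level. -/
def Level.base (L : CofixedLine W p) : Level L 0 :=
  ⟨L.c, by simp, fun σ => ⟨(ExtCitation.cycloExp p σ : ℕ), by rw [natCast_zsmul]; exact L.smul_c σ⟩⟩

namespace Level

variable {L : CofixedLine W p} {k : ℕ} (v : Level L k)

theorem addOrderOf_line (L : CofixedLine W p) : addOrderOf L.c = p :=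
  addOrderOf_eq_prime L.c_torsion L.c_ne

theorem torsion : p ^ (k + 1) • v.c = 0 := by
  rw [pow_succ', mul_nsmul', v.pow_c, L.c_torsion]

theorem addOrderOf_c : addOrderOf v.c = p ^ (k + 1) :=
  addOrderOf_eq_prime_pow (by rw [v.pow_c]; exact L.c_ne) v.torsion

/-- The cyclic subgroup of the level. -/
abbrev C : AddSubgroup (EQ W).Point := AddSubgroup.zmultiples v.c

theorem card_C : Nat.card v.C = p ^ (k + 1) := by
  rw [Nat.card_zmultiples, v.addOrderOf_c]

theorem torsion_of_mem {x : (EQ W).Point} (hx : x ∈ v.C) : p ^ (k + 1) • x = 0 := by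
  obtain ⟨i, rfl⟩ := AddSubgroup.mem_zmultiples_iff.mp hx
  rw [smul_comm, v.torsion, zsmul_zero]

theorem line_mem : L.c ∈ v.C := by
  rw [← v.pow_c]; exact AddSubgroup.nsmul_mem _ (AddSubgroup.mem_zmultiples _) _

theorem mem_line_of_mem {x : (EQ W).Point} (hx : x ∈ v.C) (hpx : p • x = 0) :
    x ∈ AddSubgroup.zmultiples L.c := by
  obtain ⟨i, rfl⟩ := AddSubgroup.mem_zmultiples_iff.mp hx
  have h : (addOrderOf v.c : ℤ) ∣ (p : ℤ) * i := by
    rw [addOrderOf_dvd_iff_zsmul_eq_zero, mul_zsmul', natCast_zsmul, smul_comm]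
    exact hpx
  rw [v.addOrderOf_c, pow_succ', Nat.cast_mul] at h
  obtain ⟨j, rfl⟩ :=
    (mul_dvd_mul_iff_left (Int.natCast_ne_zero.mpr (Fact.out : p.Prime).ne_zero)).mp h
  rw [mul_zsmul', natCast_zsmul, v.pow_c]
  exact AddSubgroup.zsmul_mem _ (AddSubgroup.mem_zmultiples _) _

theorem smul_mem (σ : GQ) {x : (EQ W).Point} (hx : x ∈ v.C) : σ • x ∈ v.C := by
  obtain ⟨i, rfl⟩ := AddSubgroup.mem_zmultiples_iff.mp hx
  obtain ⟨b, hb⟩ := v.stable σ
  rw [smul_zsmul', hb]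
  exact AddSubgroup.zsmul_mem _ (AddSubgroup.zsmul_mem _ (AddSubgroup.mem_zmultiples _) _) _

/-- Galois acts on the level through a lift of the cyclotomic character. -/
theorem exists_scalar (σ : GQ) : ∃ b : ℤ, (∀ x ∈ v.C, σ • x = b • x) ∧
    (b : ZMod p) = (ExtCitation.cycloExp p σ : ZMod p) := by
  obtain ⟨b, hb⟩ := v.stable σ
  refine ⟨b, fun x hx => ?_, ?_⟩
  · obtain ⟨i, rfl⟩ := AddSubgroup.mem_zmultiples_iff.mp hx
    rw [smul_zsmul', hb, smul_comm]
  · have h := congrArg (p ^ k • ·) hb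
    beta_reduce at h
    rw [← smul_nsmul', smul_comm (p ^ k) b, v.pow_c, L.smul_c, ← natCast_zsmul] at h
    have h' : ((b - (ExtCitation.cycloExp p σ : ℕ) : ℤ)) • L.c = 0 := by
      rw [sub_zsmul', h, sub_self]
    rw [← addOrderOf_dvd_iff_zsmul_eq_zero, addOrderOf_line,
      ← ZMod.intCast_zmod_eq_zero_iff_dvd, Int.cast_sub, Int.cast_natCast, sub_eq_zero] at h'
    exact h'

end Level

/-- The points reducing to infinity. -/
def infGroup (W : WeierstrassCurve ℤ) (A : ValuationSubring Qbar) : AddSubgroup (EQ W).Point where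
  carrier := {P | RedTo (IsLocalRing.residue A) (redCurve W A) P 0}
  zero_mem' := (RedTo.zero : RedTo (IsLocalRing.residue A) (redCurve W A) (0 : (EQ W).Point) 0)
  add_mem' := fun {a b} ha hb => by
    classical
    simpa using RedTo.add (reduces_intModel (K := Qbar) W (IsLocalRing.residue A)) ha hb
  neg_mem' := fun {a} ha => by
    classical
    simpa using RedTo.neg (reduces_intModel (K := Qbar) W (IsLocalRing.residue A)) ha

theorem mem_infGroup {A : ValuationSubring Qbar} {P : (EQ W).Point} :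
    P ∈ infGroup W A ↔ RedTo (IsLocalRing.residue A) (redCurve W A) P 0 := by rfl

theorem exists_nsmul_eq (hΔ : W.Δ ≠ 0) {j : ℕ} {x : (EQ W).Point} (hx : p ^ j • x = 0) :
    ∃ y : (EQ W).Point, p • y = x := by
  have := Torsion.isElliptic_baseChange_map W hΔ Qbar
  have hp : p.Prime := Fact.out
  have hn : ∀ i : ℕ, ((p ^ i : ℕ) : Qbar) ≠ 0 := fun i =>
    Nat.cast_ne_zero.mpr (pow_ne_zero _ hp.ne_zero)
  let T : ℕ → AddSubgroup (EQ W).Point := fun n => (nsmulAddMonoidHom n).ker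
  have hT : ∀ n : ℕ, (n : Qbar) ≠ 0 → Nat.card (T n) = n ^ 2 := fun n h =>
    Torsion.natCard_setOf_nsmul_eq_zero (W := EQ W) h
  let f : T (p ^ (j + 1)) →+ (EQ W).Point := (nsmulAddMonoidHom p).comp (T (p ^ (j + 1))).subtype
  have hle : T p ≤ T (p ^ (j + 1)) := fun y hy => by
    show p ^ (j + 1) • y = 0
    rw [pow_succ, mul_nsmul', show p • y = 0 from hy, nsmul_zero]
  have hker : Nat.card f.ker = p ^ 2 := by
    rw [show f.ker = (T p).addSubgroupOf (T (p ^ (j + 1))) from rfl,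
      Nat.card_congr (AddSubgroup.addSubgroupOfEquivOfLe hle).toEquiv, hT p (by simpa using hn 1)]
  have hrange : Nat.card f.range = (p ^ j) ^ 2 := by
    have h1 := AddSubgroup.card_eq_card_quotient_mul_card_addSubgroup f.ker
    rw [Nat.card_congr (QuotientAddGroup.quotientKerEquivRange f).toEquiv, hker, hT _ (hn _)] at h1
    refine (Nat.eq_of_mul_eq_mul_right (pow_pos hp.pos 2) ?_).symm
    rw [← h1]; ring
  have hsub : f.range ≤ T (p ^ j) := by
    rintro _ ⟨y, rfl⟩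
    show p ^ j • (p • (y : (EQ W).Point)) = 0
    rw [← mul_nsmul', ← pow_succ]
    exact y.2
  have : Finite (T (p ^ j)) := Nat.finite_of_card_ne_zero (by
    rw [hT _ (hn _)]; exact pow_ne_zero _ (pow_ne_zero _ hp.ne_zero))
  have heq : f.range = T (p ^ j) := by
    refine le_antisymm hsub fun y hy => ?_
    have hbij := (Nat.bijective_iff_injective_and_card
      (AddSubgroup.inclusion hsub : f.range → T (p ^ j))).mpr
      ⟨AddSubgroup.inclusion_injective hsub, by rw [hrange, hT _ (hn _)]⟩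
    obtain ⟨z, hz⟩ := hbij.2 ⟨y, hy⟩
    rw [← show (z : (EQ W).Point) = y from congrArg Subtype.val hz]
    exact z.2
  have hxT : x ∈ T (p ^ j) := hx
  rw [← heq] at hxT
  obtain ⟨y, hy⟩ := hxT
  exact ⟨y, hy⟩

section Local

variable (hΔ : W.Δ ≠ 0) (hss : W.IsSemistableModel) (hp : 17 ≤ p) (h2 : (2 : ℤ) ∣ W.Δ)
  (L : CofixedLine W p)

include hp L in
theorem three_dvd : (3 : ℤ) ∣ W.Δ := by
  by_contra h3
  have hp' : p.Prime := Fact.out
  obtain ⟨A, hA⟩ := Gal.exists_liesOverPrime (L := Qbar) Nat.prime_three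
  obtain ⟨σ, hσ⟩ := Gal.exists_isFrobeniusAt Nat.prime_three hA
  have hne : (3 : ℕ) ≠ p := by omega
  have hε : (ExtCitation.cycloExp p σ : ZMod p) = 3 := by
    simpa using cycloExp_frobenius Nat.prime_three hne hA hσ
  obtain ⟨i, hi⟩ := AddSubgroup.mem_zmultiples_iff.mp (L.sub_mem σ L.e L.e_torsion)
  obtain ⟨h, hh⟩ : ∃ h : ℤ, (p : ℤ) ∣ 2 * h - 1 :=
    ⟨((p : ℤ) + 1) / 2, by
      have : Odd p := hp'.odd_of_ne_two (by omega)
      obtain ⟨m, hm⟩ := this
      exact ⟨1, by rw [hm]; push_cast; omega⟩⟩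
  set Q := L.e - (h * i) • L.c with hQdef
  have hQp : p • Q = 0 := by
    rw [hQdef, nsmul_sub, L.e_torsion, smul_comm, L.c_torsion, zsmul_zero, sub_zero]
  have hQ0 : Q ≠ 0 := fun h0 => L.e_notMem (by
    rw [sub_eq_zero.mp h0]
    exact AddSubgroup.zsmul_mem _ (AddSubgroup.mem_zmultiples _) _)
  have hσc : σ • L.c = (3 : ℤ) • L.c := by
    rw [L.smul_c, ← natCast_zsmul, ← sub_eq_zero, ← sub_zsmul', ← addOrderOf_dvd_iff_zsmul_eq_zero,
      Level.addOrderOf_line, ← ZMod.intCast_zmod_eq_zero_iff_dvd]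
    push_cast
    rw [hε, sub_self]
  have hfix : σ • Q = Q := by
    rw [hQdef, smul_sub', smul_zsmul', hσc, sub_eq_iff_eq_add.mp hi.symm]
    have : (((2 * h - 1) * i : ℤ)) • L.c = 0 := by
      rw [← addOrderOf_dvd_iff_zsmul_eq_zero, Level.addOrderOf_line]
      exact dvd_mul_of_dvd_left hh i
    rw [← sub_eq_zero]
    have e : i • L.c + L.e - (h * i) • (3 : ℤ) • L.c - (L.e - (h * i) • L.c) =
        -(((2 * h - 1) * i : ℤ) • L.c) := by
      rw [← mul_zsmul', sub_mul, one_mul, sub_zsmul', mul_comm (3 : ℤ),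
        show 2 * h * i = (h * i) * 2 by ring]
      rw [show (h * i) * 3 = (h * i) * 2 + h * i by ring, add_zsmul]
      abel
    rw [e, this, neg_zero]
  exact not_inZero_of_frobenius_fixed Nat.prime_three hp' (by omega) hA hσ hQp hQ0 hfix
    (inZeroComponentAt_of_good Nat.prime_three hA (by exact_mod_cast h3) Q)

include hΔ hp L in
theorem exists_inertia_ne_one {A : ValuationSubring Qbar} (hA : A.LiesOverPrime p) :
    ∃ σ ∈ A.inertiaSubgroupIn ℚ, (ExtCitation.cycloExp p σ : ZMod p) ≠ 1 := by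
  by_contra hcon
  push Not at hcon
  have hp' : p.Prime := Fact.out
  have hfix : ∀ σ : GQ, σ • L.c = L.c ↔ (ExtCitation.cycloExp p σ : ZMod p) = 1 := fun σ => by
    rw [L.smul_c, ← sub_eq_zero, ← natCast_zsmul, ← sub_eq_zero (a := (_ : ZMod p))]
    nth_rewrite 2 [← one_zsmul L.c]
    rw [← sub_zsmul', ← addOrderOf_dvd_iff_zsmul_eq_zero, Level.addOrderOf_line,
      ← ZMod.intCast_zmod_eq_zero_iff_dvd]
    push_cast
    exact Iff.rfl
  let H : Subgroup GQ :=
    { carrier := {σ | σ • L.c = L.c}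
      one_mem' := one_smul _ _
      mul_mem' := fun {a b} (ha : a • L.c = L.c) (hb : b • L.c = L.c) => by
        show (a * b) • L.c = L.c
        rw [mul_smul, hb, ha]
      inv_mem' := fun {a} (ha : a • L.c = L.c) => by
        show a⁻¹ • L.c = L.c
        rw [inv_smul_eq_iff, ha] }
  have hn : ∀ σ : GQ, ∀ τ : GQ, τ * σ * τ⁻¹ ∈ H → σ ∈ H := by
    intro σ τ h
    have h1 : τ • σ • L.c = τ • L.c := by
      have h2 : (τ * σ * τ⁻¹) • L.c = L.c := h
      have h3 : (τ * σ * τ⁻¹) • (τ • L.c) = τ • L.c := by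
        rw [L.smul_c τ, smul_nsmul', h2]
      rwa [mul_smul, mul_smul, inv_smul_smul] at h3
    exact smul_left_cancel τ h1
  obtain ⟨F, hF, hFfix⟩ := Torsion.galoisFactorsThroughFiniteLevel_int W hΔ hp'.ne_zero
  have htop : H = ⊤ := by
    refine eq_top_of_inertia_le_of_open H ⟨F, hF, fun σ hσ => ?_⟩ fun q hq A' hA' σ hσ => ?_
    · have h := hFfix σ (fun y hy => (IntermediateField.mem_fixingSubgroup_iff F σ).mp hσ y hy)
      exact congrArg Subtype.val (DFunLike.congr_fun h ⟨L.c, by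
        rw [Submodule.mem_torsionBy_iff, natCast_zsmul]; exact L.c_torsion⟩)
    · by_cases hqp : q = p
      · subst hqp
        obtain ⟨τ, hτ⟩ := exists_conj_inertia hp' hA' hA
        exact hn σ τ ((hfix _).mpr (hcon _ (hτ σ hσ)))
      · exact (hfix σ).mpr (cycloExp_inertia hq hqp hA' hσ)
  obtain ⟨B, hB⟩ := Gal.exists_liesOverPrime (L := Qbar) Nat.prime_two
  obtain ⟨σ, hσ⟩ := Gal.exists_isFrobeniusAt Nat.prime_two hB
  have h1 := (hfix σ).mp (htop ▸ Subgroup.mem_top σ : σ ∈ H)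
  rw [cycloExp_frobenius Nat.prime_two (by omega) hB hσ, Nat.cast_ofNat,
    ← sub_eq_zero] at h1
  norm_num at h1

variable {k : ℕ} (v : Level L k)

include hΔ hss hp v in
/-- The level reduces to infinity at `p`. -/
theorem redTo_level {A : ValuationSubring Qbar} (hA : A.LiesOverPrime p) {x : (EQ W).Point}
    (hx : x ∈ v.C) : x ∈ infGroup W A := by
  obtain ⟨σ, hσ, hne⟩ := exists_inertia_ne_one hΔ hp L hA
  obtain ⟨b, hb, hbe⟩ := v.exists_scalar σ
  have hmem : (b - 1) • x ∈ infGroup W A := by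
    rw [sub_zsmul', one_zsmul, ← hb x hx, mem_infGroup]
    exact redTo_inertia_sub hΔ hss Fact.out hA hσ (v.torsion_of_mem hx)
  have hcop : IsCoprime (b - 1) ((p : ℤ) ^ (k + 1)) := by
    refine IsCoprime.pow_right ((Nat.prime_iff_prime_int.mp Fact.out).coprime_iff_not_dvd.mpr
      fun hd => hne ?_).symm
    rw [← hbe]
    rw [← ZMod.intCast_zmod_eq_zero_iff_dvd] at hd
    push_cast at hd
    exact sub_eq_zero.mp hd
  obtain ⟨u, w, huw⟩ := hcop
  have : x = u • ((b - 1) • x) := by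
    conv_lhs => rw [← one_zsmul x, ← huw, add_zsmul]
    have : (w * (p : ℤ) ^ (k + 1)) • x = 0 := by
      rw [← Nat.cast_pow, mul_comm, mul_zsmul', natCast_zsmul, v.torsion_of_mem hx,
        zsmul_zero]
    rw [this, add_zero, mul_zsmul]
  rw [this]
  exact AddSubgroup.zsmul_mem _ hmem u

include hΔ hss hp in
theorem mem_line_of_redTo {A : ValuationSubring Qbar} (hA : A.LiesOverPrime p) {x : (EQ W).Point}
    (hpx : p • x = 0) (hx : x ∈ infGroup W A) : x ∈ AddSubgroup.zmultiples L.c := by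
  obtain ⟨i, j, rfl⟩ := L.span x hpx
  have hc : L.c ∈ infGroup W A :=
    redTo_level hΔ hss hp L (Level.base L) hA (AddSubgroup.mem_zmultiples _)
  by_cases hj : (p : ℤ) ∣ j
  · obtain ⟨m, rfl⟩ := hj
    rw [mul_zsmul', natCast_zsmul, L.e_torsion, zsmul_zero, add_zero]
    exact AddSubgroup.zsmul_mem _ (AddSubgroup.mem_zmultiples _) _
  exfalso
  obtain ⟨y, hy, hyn⟩ := L.exists_not_infty A hA
  obtain ⟨u, w, huw⟩ := ((Nat.prime_iff_prime_int.mp Fact.out).coprime_iff_not_dvd.mpr hj :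
    IsCoprime (p : ℤ) j)
  have hje : j • L.e ∈ infGroup W A := by
    simpa using AddSubgroup.sub_mem _ hx (AddSubgroup.zsmul_mem _ hc i)
  have he : L.e ∈ infGroup W A := by
    have : L.e = w • (j • L.e) := by
      conv_lhs => rw [← one_zsmul L.e, ← huw, add_zsmul]
      rw [mul_zsmul, natCast_zsmul, L.e_torsion, zsmul_zero, zero_add, mul_zsmul]
    rw [this]; exact AddSubgroup.zsmul_mem _ hje w
  obtain ⟨a, b, rfl⟩ := L.span y hy
  exact hyn (mem_infGroup.1 (AddSubgroup.add_mem _ (AddSubgroup.zsmul_mem _ hc a)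
    (AddSubgroup.zsmul_mem _ he b)))

variable (h15 : InputS15)

include hΔ hss hp h2 h15 in
/-- The step from the key input: on the identity component at a bad prime, the translates of
`p`-torsion by the level lie in the level. -/
theorem mem_level_of_inZero {ℓ : ℕ} (hℓ : ℓ.Prime) (hℓp : ℓ ≠ p) (hℓΔ : (ℓ : ℤ) ∣ W.Δ)
    {A : ValuationSubring Qbar} (hA : A.LiesOverPrime ℓ) {d x : (EQ W).Point} (hx : x ∈ v.C)
    (hd : p • (d - x) = 0) (hd0 : W.InZeroComponentAt A d) : d ∈ v.C := by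
  classical
  by_contra hdC
  have hp' : p.Prime := Fact.out
  obtain ⟨W', φ, hΔ', hφσ, hφ0, hφbad⟩ := Quotient.exists_quotient hΔ hp' (by omega) v.C v.card_C
    fun σ P hP => v.smul_mem σ hP
  set Q := φ L.e with hQdef
  have hQp : p • Q = 0 := by rw [hQdef, ← map_nsmul, L.e_torsion, map_zero]
  have hQ0 : Q ≠ 0 := fun h0 =>
    L.e_notMem (v.mem_line_of_mem ((hφ0 _).1 h0) L.e_torsion)
  have hQfix : ∀ σ : GQ, σ • Q = Q := fun σ => by
    rw [hQdef, ← hφσ, ← sub_eq_zero, ← map_sub, hφ0]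
    obtain ⟨i, hi⟩ := AddSubgroup.mem_zmultiples_iff.mp (L.sub_mem σ L.e L.e_torsion)
    rw [← hi]
    exact AddSubgroup.zsmul_mem _ v.line_mem i
  have h2c : ¬ ((2 : ℕ) : ℤ) ∣ W.c₄ := hss 2 Nat.prime_two (by exact_mod_cast h2)
  have h3 := three_dvd hp L
  have h3c : ¬ ((3 : ℕ) : ℤ) ∣ W.c₄ := hss 3 Nat.prime_three (by exact_mod_cast h3)
  obtain ⟨h2Δ', h2c', -⟩ := hφbad 2 Nat.prime_two (by omega) (by exact_mod_cast h2) h2c
  obtain ⟨h3Δ', h3c', -⟩ := hφbad 3 Nat.prime_three (by omega) (by exact_mod_cast h3) h3c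
  obtain ⟨hℓΔ', hℓc', hgood⟩ := hφbad ℓ hℓ hℓp hℓΔ (hss ℓ hℓ hℓΔ)
  have key : ∀ r : ℕ, r.Prime → r ^ 2 + 1 < p → ∀ B : ValuationSubring Qbar,
      B.LiesOverPrime r → ¬ W'.InZeroComponentAt B Q := fun r hr hsm B hB => by
    obtain ⟨σ, hσ⟩ := Gal.exists_isFrobeniusAt hr hB
    exact not_inZero_of_frobenius_fixed hr hp' hsm hB hσ hQp hQ0 (hQfix σ)
  have hnot : p ∉ ({2, 3, 5, 7, 13} : Finset ℕ) := by
    simp only [Finset.mem_insert, Finset.mem_singleton]; omega
  have hQnot := h15 hp' hnot W' hΔ' Q hQfix (addOrderOf_eq_prime hQp hQ0)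
    (by exact_mod_cast h2Δ') (by exact_mod_cast h2c') (key 2 Nat.prime_two (by omega))
    (by exact_mod_cast h3Δ') (by exact_mod_cast h3c') (key 3 Nat.prime_three (by omega))
    hℓ hℓp hℓΔ' hℓc' A hA
  obtain ⟨i, j, hij⟩ := L.span (d - x) hd
  have hφd : φ d = j • Q := by
    rw [eq_add_of_sub_eq hij, map_add, map_add, map_zsmul, map_zsmul, (hφ0 x).2 hx, add_zero,
      (hφ0 L.c).2 v.line_mem, zsmul_zero, zero_add]
  have hdn : p ^ (k + 1) • d = 0 := by
    have h1 : p ^ (k + 1) • (d - x) = 0 := by rw [pow_succ, mul_nsmul', hd, nsmul_zero]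
    rwa [nsmul_sub, v.torsion_of_mem hx, sub_zero] at h1
  have hnd : ¬ ℓ ∣ p ^ (k + 1) := fun hh =>
    hℓp ((Nat.prime_dvd_prime_iff_eq hℓ hp').mp (hℓ.dvd_of_dvd_pow hh))
  have hmem := (inZeroComponentAt_iff W' A _).1 (hgood A hA d (p ^ (k + 1)) hnd hdn hdC hd0)
  rw [hφd] at hmem
  have hj : ¬ (p : ℤ) ∣ j := fun ⟨m, hm⟩ => hdC <| (hφ0 d).1 <| by
    rw [hφd, hm, mul_zsmul', natCast_zsmul, hQp, zsmul_zero]
  obtain ⟨u, w, huw⟩ := ((Nat.prime_iff_prime_int.mp Fact.out).coprime_iff_not_dvd.mpr hj :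
    IsCoprime (p : ℤ) j)
  refine hQnot ((inZeroComponentAt_iff W' A Q).2 ?_)
  have : Q = w • (j • Q) := by
    conv_lhs => rw [← one_zsmul Q, ← huw, add_zsmul]
    rw [mul_zsmul, natCast_zsmul, hQp, zsmul_zero, zero_add, mul_zsmul]
  rw [this]
  exact AddSubgroup.zsmul_mem _ hmem w

include hΔ hss hp h2 h15 in
/-- At a bad prime the torsion of the identity component lies in the level. -/
theorem torsion_mem_level {ℓ : ℕ} (hℓ : ℓ.Prime) (hℓp : ℓ ≠ p) (hℓΔ : (ℓ : ℤ) ∣ W.Δ)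
    {A : ValuationSubring Qbar} (hA : A.LiesOverPrime ℓ) :
    ∀ j, j ≤ k + 1 → ∀ d : (EQ W).Point, p ^ j • d = 0 → W.InZeroComponentAt A d → d ∈ v.C := by
  classical
  intro j
  induction j with
  | zero => intro _ d hd _; rw [show d = 0 by simpa using hd]; exact zero_mem _
  | succ j ih =>
    intro hj d hd hd0
    have hpd : p • d ∈ v.C := by
      refine ih (by omega) _ (by rw [← mul_nsmul', ← pow_succ]; exact hd) ?_
      rw [inZeroComponentAt_iff] at hd0 ⊢
      exact AddSubgroup.nsmul_mem _ hd0 _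
    obtain ⟨i, hi⟩ := AddSubgroup.mem_zmultiples_iff.mp hpd
    have hdiv : (addOrderOf v.c : ℤ) ∣ (p : ℤ) ^ j * i := by
      rw [addOrderOf_dvd_iff_zsmul_eq_zero, mul_zsmul', smul_comm, hi, ← Nat.cast_pow,
        natCast_zsmul, ← mul_nsmul', ← pow_succ]
      exact hd
    rw [v.addOrderOf_c, Nat.cast_pow] at hdiv
    have hpi : (p : ℤ) ∣ i := by
      have h1 : (p : ℤ) ^ (j + 1) ∣ (p : ℤ) ^ j * i := (pow_dvd_pow _ hj).trans hdiv
      rw [pow_succ] at h1
      exact (mul_dvd_mul_iff_left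
        (pow_ne_zero _ (Int.natCast_ne_zero.mpr (Fact.out : p.Prime).ne_zero))).mp h1
    obtain ⟨m, rfl⟩ := hpi
    refine mem_level_of_inZero hΔ hss hp h2 L v h15 hℓ hℓp hℓΔ hA
      (x := m • v.c) (AddSubgroup.zsmul_mem _ (AddSubgroup.mem_zmultiples _) _) ?_ hd0
    rw [nsmul_sub, ← hi, mul_zsmul', natCast_zsmul, zsmul_nsmul_comm, sub_self]

include hΔ hss hp in
/-- At `p` the torsion reducing to infinity lies in the level. -/
theorem infty_mem_level {A : ValuationSubring Qbar} (hA : A.LiesOverPrime p) :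
    ∀ j, j ≤ k + 1 → ∀ d : (EQ W).Point, p ^ j • d = 0 → d ∈ infGroup W A → d ∈ v.C := by
  intro j
  induction j with
  | zero => intro _ d hd _; rw [show d = 0 by simpa using hd]; exact zero_mem _
  | succ j ih =>
    intro hj d hd hd0
    have hpd : p • d ∈ v.C :=
      ih (by omega) _ (by rw [← mul_nsmul', ← pow_succ]; exact hd) (AddSubgroup.nsmul_mem _ hd0 _)
    obtain ⟨i, hi⟩ := AddSubgroup.mem_zmultiples_iff.mp hpd
    have hdiv : (addOrderOf v.c : ℤ) ∣ (p : ℤ) ^ j * i := by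
      rw [addOrderOf_dvd_iff_zsmul_eq_zero, mul_zsmul', smul_comm, hi, ← Nat.cast_pow,
        natCast_zsmul, ← mul_nsmul', ← pow_succ]
      exact hd
    rw [v.addOrderOf_c, Nat.cast_pow] at hdiv
    have hpi : (p : ℤ) ∣ i := by
      have h1 : (p : ℤ) ^ (j + 1) ∣ (p : ℤ) ^ j * i := (pow_dvd_pow _ hj).trans hdiv
      rw [pow_succ] at h1
      exact (mul_dvd_mul_iff_left
        (pow_ne_zero _ (Int.natCast_ne_zero.mpr (Fact.out : p.Prime).ne_zero))).mp h1
    obtain ⟨m, rfl⟩ := hpi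
    have hm : m • v.c ∈ v.C := AddSubgroup.zsmul_mem _ (AddSubgroup.mem_zmultiples _) _
    have h1 := mem_line_of_redTo hΔ hss hp L hA (x := d - m • v.c)
      (by rw [nsmul_sub, ← hi, mul_zsmul', natCast_zsmul, zsmul_nsmul_comm, sub_self])
      (AddSubgroup.sub_mem _ hd0 (redTo_level hΔ hss hp L v hA hm))
    have h3 : d - m • v.c ∈ v.C := by
      obtain ⟨i', hi'⟩ := AddSubgroup.mem_zmultiples_iff.mp h1
      rw [← hi']
      exact AddSubgroup.zsmul_mem _ v.line_mem i'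
    simpa using AddSubgroup.add_mem _ h3 hm

include hΔ hss hp h2 h15 v in
/-- Galois acts trivially on the `p ^ (k + 1)`-torsion modulo the level. -/
theorem smul_sub_mem_level :
    ∀ σ : GQ, ∀ y : (EQ W).Point, p ^ (k + 1) • y = 0 → σ • y - y ∈ v.C := by
  let H : Subgroup GQ :=
    { carrier := {σ | ∀ y : (EQ W).Point, p ^ (k + 1) • y = 0 → σ • y - y ∈ v.C}
      one_mem' := fun y _ => by rw [one_smul, sub_self]; exact zero_mem _
      mul_mem' := fun {a b} ha hb y hy => by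
        have : (a * b) • y - y = a • (b • y - y) + (a • y - y) := by
          rw [mul_smul, smul_sub']; abel
        rw [this]
        exact AddSubgroup.add_mem _ (v.smul_mem a (hb y hy)) (ha y hy)
      inv_mem' := fun {a} ha y hy => by
        have h1 := v.smul_mem a⁻¹ (AddSubgroup.neg_mem _ (ha y hy))
        rwa [neg_sub, smul_sub', inv_smul_smul] at h1 }
  obtain ⟨F, hF, hFfix⟩ := Torsion.galoisFactorsThroughFiniteLevel_int W hΔ
    (pow_ne_zero (k + 1) (Fact.out : p.Prime).ne_zero)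
  have htop : H = ⊤ := by
    refine eq_top_of_inertia_le_of_open H ⟨F, hF, fun σ hσ y hy => ?_⟩ fun q hq A hA σ hσ y hy => ?_
    · have h := hFfix σ (fun z hz => (IntermediateField.mem_fixingSubgroup_iff F σ).mp hσ z hz)
      have hy' : y ∈ Submodule.torsionBy ℤ (EQ W).Point ((p ^ (k + 1) : ℕ) : ℤ) := by
        rw [Submodule.mem_torsionBy_iff, natCast_zsmul]; exact hy
      have h1 : σ • y = y := congrArg Subtype.val (DFunLike.congr_fun h
        (⟨y, hy'⟩ : Submodule.torsionBy ℤ (EQ W).Point ((p ^ (k + 1) : ℕ) : ℤ)))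

      rw [h1, sub_self]; exact zero_mem _
    · have hkill : p ^ (k + 1) • (σ • y - y) = 0 := by
        rw [nsmul_sub, ← smul_nsmul', hy, smul_zero', sub_zero]
      by_cases hqp : q = p
      · subst hqp
        exact infty_mem_level hΔ hss hp L v hA (k + 1) le_rfl _ hkill
          (mem_infGroup.2 (redTo_inertia_sub hΔ hss hq hA hσ hy))
      by_cases hqΔ : (q : ℤ) ∣ W.Δ
      · exact torsion_mem_level hΔ hss hp h2 L v h15 hq hqp hqΔ hA (k + 1) le_rfl _ hkill
          (Conductor.sub_inZeroComponentAt hΔ hss hq hA hσ y)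
      · have hn : ¬ q ∣ p ^ (k + 1) := fun hd =>
          hqp ((Nat.prime_dvd_prime_iff_eq hq Fact.out).mp (hq.dvd_of_dvd_pow hd))
        rw [smul_eq_of_inZeroComponentAt hq hA hn hσ (inZeroComponentAt_of_good hq hA hqΔ y) hy,
          sub_self]
        exact zero_mem _
  exact fun σ => (htop ▸ Subgroup.mem_top σ : σ ∈ H)

end Local

end Fermat.Agent.EC.Reducible
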