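import Fermat.Agent.EC.Reducible.Tower
import Fermat.Prelude.Def_ExtCitation_AdmissibleExtension_v2

/-!
The step of the tower: the points carried by multiplication by `p` into a level, modulo the level,
form an admissible extension of `μ_p` by a trivial line; a splitting gives the next level.
-/

set_option autoImplicit false

noncomputable section

namespace Fermat.Agent.EC.Reducible

open WeierstrassCurve Fermat.Agent.EC.Reduction
open scoped WeierstrassCurve.Affine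

local notation "Qbar" => AlgebraicClosure ℚ
local notation "GQ" => (AlgebraicClosure ℚ ≃ₐ[ℚ] AlgebraicClosure ℚ)
local notation "EQ" W => ((WeierstrassCurve.map W (Int.castRingHom ℚ))⁄(AlgebraicClosure ℚ))

variable {W : WeierstrassCurve ℤ} {p : ℕ} [Fact p.Prime]

local instance smulCommNZ' : SMulCommClass ℕ ℤ (EQ W).Point :=
  ⟨fun n i x => (zsmul_nsmul_comm i n x).symm⟩

namespace Level

variable {L : CofixedLine W p} {k : ℕ} (v : Level L k)

/-- The points carried into the level by multiplication by `p`. -/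
def Y : AddSubgroup (EQ W).Point := v.C.comap (nsmulAddMonoidHom p)

theorem mem_Y {y : (EQ W).Point} : y ∈ v.Y ↔ p • y ∈ v.C := Iff.rfl

theorem smul_mem_Y (σ : GQ) {y : (EQ W).Point} (hy : y ∈ v.Y) : σ • y ∈ v.Y := by
  rw [mem_Y, ← smul_nsmul']
  exact v.smul_mem σ hy

theorem torsion_of_mem_Y {y : (EQ W).Point} (hy : y ∈ v.Y) : p ^ (k + 2) • y = 0 := by
  rw [show p ^ (k + 2) = p * p ^ (k + 1) by ring, mul_nsmul]
  exact v.torsion_of_mem hy

theorem mem_Y_of_torsion {t : (EQ W).Point} (ht : p • t = 0) : t ∈ v.Y := by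
  rw [mem_Y, ht]
  exact zero_mem _

/-- The points carried into the level, modulo the level. -/
abbrev V : Type := ↥v.Y ⧸ v.C.addSubgroupOf v.Y

/-- The class of a point. -/
def cls (y : (EQ W).Point) (hy : y ∈ v.Y) : v.V := QuotientAddGroup.mk ⟨y, hy⟩

theorem exists_rep (z : v.V) : ∃ (y : (EQ W).Point) (hy : y ∈ v.Y), z = v.cls y hy := by
  obtain ⟨⟨y, hy⟩, rfl⟩ := QuotientAddGroup.mk_surjective z
  exact ⟨y, hy, rfl⟩

theorem mk_eq_mk {y y' : (EQ W).Point} (hy : y ∈ v.Y) (hy' : y' ∈ v.Y) :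
    v.cls y hy = v.cls y' hy' ↔ y - y' ∈ v.C := by
  rw [cls, cls, QuotientAddGroup.eq, AddSubgroup.mem_addSubgroupOf]
  have e : ((-⟨y, hy⟩ + ⟨y', hy'⟩ : v.Y) : (EQ W).Point) = -(y - y') := by
    show -y + y' = -(y - y'); abel
  rw [e, neg_mem_iff]

theorem mk_eq_zero {y : (EQ W).Point} (hy : y ∈ v.Y) : v.cls y hy = 0 ↔ y ∈ v.C := by
  rw [show (0 : v.V) = v.cls 0 (zero_mem _) from rfl, mk_eq_mk, sub_zero]

theorem mk_congr {y y' : (EQ W).Point} (h : y = y') (hy : y ∈ v.Y) (hy' : y' ∈ v.Y) :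
    v.cls y hy = v.cls y' hy' := by subst h; rfl

/-- Galois on the quotient. -/
def act (σ : GQ) : v.V →+ v.V :=
  QuotientAddGroup.map (v.C.addSubgroupOf v.Y) (v.C.addSubgroupOf v.Y)
    { toFun := fun y => ⟨σ • (y : (EQ W).Point), v.smul_mem_Y σ y.2⟩
      map_zero' := Subtype.ext (smul_zero' σ)
      map_add' := fun a b => Subtype.ext (smul_add' σ (a : (EQ W).Point) b) }
    (fun _ hy => v.smul_mem σ hy)

theorem act_mk (σ : GQ) {y : (EQ W).Point} (hy : y ∈ v.Y) :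
    v.act σ (v.cls y hy) = v.cls (σ • y) (v.smul_mem_Y σ hy) := rfl

instance galoisAction : DistribMulAction GQ v.V where
  smul σ z := v.act σ z
  one_smul z := by
    obtain ⟨y, hy, rfl⟩ := v.exists_rep z
    show v.act 1 _ = _
    rw [act_mk]
    exact v.mk_congr (one_smul _ y) _ _
  mul_smul σ τ z := by
    obtain ⟨y, hy, rfl⟩ := v.exists_rep z
    show v.act (σ * τ) _ = v.act σ (v.act τ _)
    rw [act_mk, act_mk, act_mk]
    exact v.mk_congr (mul_smul σ τ y) _ _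
  smul_zero σ := map_zero (v.act σ)
  smul_add σ := map_add (v.act σ)

theorem smul_mk (σ : GQ) {y : (EQ W).Point} (hy : y ∈ v.Y) :
    σ • v.cls y hy = v.cls (σ • y) (v.smul_mem_Y σ hy) := rfl

instance zmodModule : Module (ZMod p) v.V :=
  AddCommGroup.zmodModule fun z => by
    obtain ⟨y, hy, rfl⟩ := v.exists_rep z
    exact (v.mk_eq_zero (AddSubgroup.nsmul_mem _ hy p)).2 hy

instance smulComm : SMulCommClass GQ (ZMod p) v.V :=
  ⟨fun σ c z => ZMod.map_smul (v.act σ) c z⟩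

/-- The image of the `p`-torsion. -/
def line : Submodule (ZMod p) v.V :=
  Submodule.span (ZMod p) {v.cls L.e (v.mem_Y_of_torsion L.e_torsion)}

theorem smul_mk_natCast (n : ℕ) {y : (EQ W).Point} (hy : y ∈ v.Y) :
    (n : ZMod p) • v.cls y hy = v.cls (n • y) (AddSubgroup.nsmul_mem _ hy n) := by
  rw [Nat.cast_smul_eq_nsmul]
  rfl

theorem smul_mk_intCast (i : ℤ) {y : (EQ W).Point} (hy : y ∈ v.Y) :
    (i : ZMod p) • v.cls y hy = v.cls (i • y) (AddSubgroup.zsmul_mem _ hy i) := by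
  rw [Int.cast_smul_eq_zsmul]
  rfl

theorem mk_mem_line {t : (EQ W).Point} (ht : p • t = 0) :
    v.cls t (v.mem_Y_of_torsion ht) ∈ v.line := by
  obtain ⟨i, j, hij⟩ := L.span t ht
  have : v.cls t (v.mem_Y_of_torsion ht) =
      (j : ZMod p) • v.cls L.e (v.mem_Y_of_torsion L.e_torsion) := by
    rw [smul_mk_intCast, mk_eq_mk, hij, add_sub_cancel_right]
    exact AddSubgroup.zsmul_mem _ v.line_mem i
  rw [this]
  exact Submodule.smul_mem _ _ (Submodule.subset_span rfl)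

theorem exists_of_mem_line {z : v.V} (hz : z ∈ v.line) :
    ∃ (t : (EQ W).Point) (ht : p • t = 0), z = v.cls t (v.mem_Y_of_torsion ht) := by
  obtain ⟨c, rfl⟩ := Submodule.mem_span_singleton.1 hz
  refine ⟨c.val • L.e, by rw [← mul_nsmul', mul_comm, mul_nsmul', L.e_torsion, nsmul_zero], ?_⟩
  conv_lhs => rw [← ZMod.natCast_zmod_val c, smul_mk_natCast]

theorem mk_e_ne : v.cls L.e (v.mem_Y_of_torsion L.e_torsion) ≠ 0 := fun h =>
  L.e_notMem (v.mem_line_of_mem ((v.mk_eq_zero _).1 h) L.e_torsion)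

/-- A point dividing the generator gives coordinates on the quotient. -/
theorem exists_coords {y₁ : (EQ W).Point} (hy₁ : y₁ ∈ v.Y) (h₁ : p • y₁ = v.c) (z : v.V) :
    ∃ a : ℤ, z - (a : ZMod p) • v.cls y₁ hy₁ ∈ v.line := by
  obtain ⟨y, hy, rfl⟩ := v.exists_rep z
  obtain ⟨a, ha⟩ := AddSubgroup.mem_zmultiples_iff.mp (v.mem_Y.1 hy)
  have ht : p • (y - a • y₁) = 0 := by rw [nsmul_sub, ← zsmul_nsmul_comm, h₁, ha, sub_self]
  refine ⟨a, ?_⟩
  have : v.cls y hy - (a : ZMod p) • v.cls y₁ hy₁ = v.cls (y - a • y₁) (v.mem_Y_of_torsion ht) := by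
    rw [smul_mk_intCast]; rfl
  rw [this]
  exact v.mk_mem_line ht

theorem c_ne_nsmul {x : (EQ W).Point} (hx : x ∈ v.C) : p • x ≠ v.c := fun h => L.c_ne <| by
  have := v.torsion_of_mem hx
  rwa [pow_succ, mul_nsmul', h, v.pow_c] at this

theorem notMem_line {y₁ : (EQ W).Point} (hy₁ : y₁ ∈ v.Y) (h₁ : p • y₁ = v.c) :
    v.cls y₁ hy₁ ∉ v.line := fun h => by
  obtain ⟨t, ht, he⟩ := v.exists_of_mem_line h
  refine v.c_ne_nsmul ((v.mk_eq_mk _ _).1 he) ?_
  rw [nsmul_sub, ht, sub_zero, h₁]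

theorem eq_zero_of_smul_mem_line {y₁ : (EQ W).Point} {hy₁ : y₁ ∈ v.Y} (h₁ : p • y₁ = v.c)
    {a : ZMod p} (ha : a • v.cls y₁ hy₁ ∈ v.line) : a = 0 := by
  by_contra h
  exact v.notMem_line hy₁ h₁ (by simpa [smul_smul, inv_mul_cancel₀ h] using v.line.smul_mem a⁻¹ ha)

end Level

variable (hΔ : W.Δ ≠ 0) (hss : W.IsSemistableModel) (hp : 17 ≤ p) (h2 : (2 : ℤ) ∣ W.Δ)
  (L : CofixedLine W p) {k : ℕ} (v : Level L k)

include hΔ in
theorem Level.card_line_and_total :
    Nat.card v.line = p ∧ Nat.card v.V = p ^ 2 := by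
  obtain ⟨y₁, h₁⟩ := exists_nsmul_eq hΔ v.torsion
  have hy₁ : y₁ ∈ v.Y := v.mem_Y.2 (h₁ ▸ AddSubgroup.mem_zmultiples _)
  set e := v.cls L.e (v.mem_Y_of_torsion L.e_torsion)
  set u := v.cls y₁ hy₁
  have hinj : Function.Injective fun a : ZMod p => a • e := smul_left_injective _ v.mk_e_ne
  have hrange : (v.line : Set v.V) = Set.range fun a : ZMod p => a • e := by
    ext z; simp [Level.line, Submodule.mem_span_singleton, e]
  refine ⟨?_, ?_⟩
  · rw [← SetLike.coe_sort_coe, hrange, Nat.card_range_of_injective hinj, Nat.card_zmod]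
  · let f : ZMod p × ZMod p → v.V := fun ab => ab.1 • e + ab.2 • u
    have hmem : ∀ a : ZMod p, a • e ∈ v.line := fun a =>
      Submodule.smul_mem _ _ (Submodule.subset_span rfl)
    have hf : Function.Bijective f := by
      refine ⟨fun ⟨a, b⟩ ⟨a', b'⟩ h => ?_, fun z => ?_⟩
      · have h' : a • e + b • u = a' • e + b' • u := h
        have hb : (b - b') • u = (a' - a) • e := by
          rw [sub_smul, sub_smul, sub_eq_sub_iff_add_eq_add, add_comm, h', add_comm]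
        have hbb : b = b' := sub_eq_zero.mp
          (v.eq_zero_of_smul_mem_line h₁ (hb ▸ hmem _))
        subst hbb
        exact Prod.ext (hinj (add_right_cancel h')) rfl
      · obtain ⟨b, hb⟩ := v.exists_coords hy₁ h₁ z
        obtain ⟨a, ha⟩ := Submodule.mem_span_singleton.1 hb
        exact ⟨(a, b), by show a • e + _ = z; rw [ha, sub_add_cancel]⟩
    rw [← Nat.card_congr (Equiv.ofBijective f hf), Nat.card_prod, Nat.card_zmod, sq]

variable (h15 : InputS15)

include hΔ hss hp h2 h15 in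
/-- The quotient is an admissible extension. -/
theorem Level.isAdmissible : ExtCitation.IsAdmissibleExtensionCts p v.V v.line := by
  classical
  have hp' : p.Prime := Fact.out
  refine ⟨⟨fun σ x hx => ?_, fun σ x hx => ?_, fun σ x => ?_, (v.card_line_and_total hΔ).1,
    (v.card_line_and_total hΔ).2, fun ℓ hℓ hℓp A hA σ hσ x => ?_, fun A hA => ?_⟩, ?_⟩
  · obtain ⟨t, ht, rfl⟩ := v.exists_of_mem_line hx
    rw [v.smul_mk]
    exact v.mk_mem_line (by rw [← smul_nsmul', ht, smul_zero'])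
  · obtain ⟨t, ht, rfl⟩ := v.exists_of_mem_line hx
    rw [v.smul_mk, v.mk_eq_mk]
    obtain ⟨i, hi⟩ := AddSubgroup.mem_zmultiples_iff.mp (L.sub_mem σ t ht)
    rw [← hi]
    exact AddSubgroup.zsmul_mem _ v.line_mem i
  · obtain ⟨y, hy, rfl⟩ := v.exists_rep x
    obtain ⟨b, hb, hbε⟩ := v.exists_scalar σ
    obtain ⟨m, hm⟩ : (p : ℤ) ∣ b - (ExtCitation.cycloExp p σ : ℕ) := by
      rw [← ZMod.intCast_zmod_eq_zero_iff_dvd]; push_cast; rw [hbε, sub_self]
    set x := σ • y - ExtCitation.cycloExp p σ • y with hx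
    have hxC : m • (p • y) ∈ v.C := AddSubgroup.zsmul_mem _ (v.mem_Y.1 hy) m
    have ht : p • (x - m • (p • y)) = 0 := by
      rw [nsmul_sub, hx, nsmul_sub, ← smul_nsmul', hb _ (v.mem_Y.1 hy),
        smul_comm p (ExtCitation.cycloExp p σ) y,
        ← natCast_zsmul (p • y) (ExtCitation.cycloExp p σ), ← sub_zsmul', hm, smul_comm p m,
        mul_zsmul', natCast_zsmul, sub_self]
    rw [v.smul_mk, v.smul_mk_natCast]
    have h1 : v.cls (σ • y) (v.smul_mem_Y σ hy) -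
        v.cls (ExtCitation.cycloExp p σ • y) (AddSubgroup.nsmul_mem _ hy _) =
          v.cls x (AddSubgroup.sub_mem _ (v.smul_mem_Y σ hy) (AddSubgroup.nsmul_mem _ hy _)) := rfl
    rw [h1, (v.mk_eq_mk _ (v.mem_Y_of_torsion ht)).2 (by rwa [sub_sub_cancel])]
    exact v.mk_mem_line ht
  · obtain ⟨y, hy, rfl⟩ := v.exists_rep x
    rw [v.smul_mk, v.mk_eq_mk]
    have hn : ¬ ℓ ∣ p ^ (k + 2) := fun hd =>
      hℓp ((Nat.prime_dvd_prime_iff_eq hℓ hp').mp (hℓ.dvd_of_dvd_pow hd))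
    by_cases hℓΔ : (ℓ : ℤ) ∣ W.Δ
    · obtain ⟨b, hb, hbε⟩ := v.exists_scalar σ
      rw [cycloExp_inertia hℓ hℓp hA hσ, ← sub_eq_zero, ← Int.cast_one (R := ZMod p),
        ← Int.cast_sub, ZMod.intCast_zmod_eq_zero_iff_dvd] at hbε
      obtain ⟨m, hm⟩ := hbε
      refine mem_level_of_inZero hΔ hss hp h2 L v h15 hℓ hℓp hℓΔ hA
        (x := m • (p • y)) (AddSubgroup.zsmul_mem _ (v.mem_Y.1 hy) m) ?_
        (Conductor.sub_inZeroComponentAt hΔ hss hℓ hA hσ y)
      rw [nsmul_sub, nsmul_sub, ← smul_nsmul', hb _ (v.mem_Y.1 hy), smul_comm p m]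
      nth_rewrite 2 [← one_zsmul (p • y)]
      rw [← sub_zsmul', hm, mul_zsmul', natCast_zsmul, sub_self]
    · rw [smul_eq_of_inZeroComponentAt hℓ hA hn hσ (inZeroComponentAt_of_good hℓ hA hℓΔ y)
        (v.torsion_of_mem_Y hy), sub_self]
      exact zero_mem _
  · obtain ⟨σ₀, hσ₀, hne⟩ := exists_inertia_ne_one hΔ hp L hA
    let C' : Submodule (ZMod p) v.V :=
      AddSubgroup.toZModSubmodule p
        (((infGroup W A).addSubgroupOf v.Y).map (QuotientAddGroup.mk' (v.C.addSubgroupOf v.Y)))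
    have hC' : ∀ z : v.V, z ∈ C' ↔
        ∃ (y : (EQ W).Point) (hy : y ∈ v.Y), y ∈ infGroup W A ∧ z = v.cls y hy := by
      intro z
      constructor
      · rintro ⟨⟨y, hy⟩, hyA, rfl⟩
        exact ⟨y, hy, hyA, rfl⟩
      · rintro ⟨y, hy, hyA, rfl⟩
        exact ⟨⟨y, hy⟩, hyA, rfl⟩
    refine ⟨C', fun σ hσ z hz => ?_, ⟨?_, ?_⟩⟩
    · obtain ⟨y, hy, hyA, rfl⟩ := (hC' z).1 hz
      exact (hC' _).2 ⟨σ • y, v.smul_mem_Y σ hy,
        mem_infGroup.2 (redTo_smul_zero hσ (mem_infGroup.1 hyA)), rfl⟩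
    · rw [Submodule.disjoint_def]
      intro z hz hz'
      obtain ⟨t, ht, rfl⟩ := v.exists_of_mem_line hz
      obtain ⟨y, hy, hyA, he⟩ := (hC' _).1 hz'
      have hd := (v.mk_eq_mk _ _).1 he
      have htA : t ∈ infGroup W A := by
        simpa using AddSubgroup.add_mem _ (redTo_level hΔ hss hp L v hA hd) hyA
      obtain ⟨i, hi⟩ := AddSubgroup.mem_zmultiples_iff.mp
        (mem_line_of_redTo hΔ hss hp L hA ht htA)
      rw [v.mk_eq_zero, ← hi]
      exact AddSubgroup.zsmul_mem _ v.line_mem i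
    · rw [codisjoint_iff, Submodule.eq_top_iff']
      intro z
      obtain ⟨b, hb, hbε⟩ := v.exists_scalar σ₀
      obtain ⟨y₁, h₁⟩ := exists_nsmul_eq hΔ v.torsion
      have hy₁ : y₁ ∈ v.Y := v.mem_Y.2 (h₁ ▸ AddSubgroup.mem_zmultiples _)
      have hc : v.c ∈ v.C := AddSubgroup.mem_zmultiples _
      set w := σ₀ • y₁ - y₁ with hw
      have hwY : w ∈ v.Y := AddSubgroup.sub_mem _ (v.smul_mem_Y σ₀ hy₁) hy₁
      have hwA : w ∈ infGroup W A :=
        mem_infGroup.2 (redTo_inertia_sub hΔ hss hp' hA hσ₀ (v.torsion_of_mem_Y hy₁))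
      have ht : p • (w - (b - 1) • y₁) = 0 := by
        rw [nsmul_sub, hw, nsmul_sub, ← smul_nsmul', h₁, hb _ hc, ← zsmul_nsmul_comm, h₁,
          sub_zsmul', one_zsmul, sub_self]
      obtain ⟨a, ha⟩ := v.exists_coords hy₁ h₁ z
      have hb1 : ((b - 1 : ℤ) : ZMod p) ≠ 0 := by
        push_cast
        rw [hbε]
        exact sub_ne_zero.mpr hne
      set r : ZMod p := (a : ZMod p) * ((b - 1 : ℤ) : ZMod p)⁻¹
      have hwl : v.cls w hwY - ((b - 1 : ℤ) : ZMod p) • v.cls y₁ hy₁ ∈ v.line := by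
        rw [v.smul_mk_intCast]
        exact v.mk_mem_line ht
      have h3 : z - r • v.cls w hwY ∈ v.line := by
        have : z - r • v.cls w hwY = (z - (a : ZMod p) • v.cls y₁ hy₁) -
            r • (v.cls w hwY - ((b - 1 : ℤ) : ZMod p) • v.cls y₁ hy₁) := by
          rw [smul_sub, smul_smul, mul_assoc, inv_mul_cancel₀ hb1, mul_one]
          abel
        rw [this]
        exact Submodule.sub_mem _ ha (Submodule.smul_mem _ _ hwl)
      exact Submodule.mem_sup.2 ⟨_, h3, _,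
        C'.smul_mem r ((hC' _).2 ⟨w, hwY, hwA, rfl⟩), sub_add_cancel _ _⟩
  · obtain ⟨F, hF, hFfix⟩ := Torsion.galoisFactorsThroughFiniteLevel_int W hΔ
      (pow_ne_zero (k + 2) hp'.ne_zero)
    have hle : F.fixingSubgroup ≤
        { carrier := {σ : GQ | ∀ z : v.V, σ • z = z}
          one_mem' := fun z => one_smul _ z
          mul_mem' := fun {a b} ha hb z => by rw [mul_smul, hb, ha]
          inv_mem' := fun {a} ha z => by rw [inv_smul_eq_iff, ha] : Subgroup GQ } :=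
        fun σ hσ z => by
      obtain ⟨y, hy, rfl⟩ := v.exists_rep z
      rw [v.smul_mk]
      refine v.mk_congr ?_ _ _
      have h := hFfix σ (fun x hx => (IntermediateField.mem_fixingSubgroup_iff F σ).mp hσ x hx)
      have hy' : y ∈ Submodule.torsionBy ℤ (EQ W).Point ((p ^ (k + 2) : ℕ) : ℤ) := by
        rw [Submodule.mem_torsionBy_iff, natCast_zsmul]; exact v.torsion_of_mem_Y hy
      exact congrArg Subtype.val (DFunLike.congr_fun h
        (⟨y, hy'⟩ : Submodule.torsionBy ℤ (EQ W).Point ((p ^ (k + 2) : ℕ) : ℤ)))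
    exact Subgroup.isOpen_mono hle F.fixingSubgroup_isOpen

include hΔ hss hp h2 h15 v in
/-- The tower climbs. -/
theorem Level.exists_succ (h14 : ExtCitation.ExtVanishingCts p) : Nonempty (Level L (k + 1)) := by
  obtain ⟨D, hD, hcompl⟩ := h14 v.V v.line (Level.isAdmissible hΔ hss hp h2 L v h15)
  obtain ⟨y₁, h₁⟩ := exists_nsmul_eq hΔ v.torsion
  have hy₁ : y₁ ∈ v.Y := v.mem_Y.2 (h₁ ▸ AddSubgroup.mem_zmultiples _)
  obtain ⟨t, hts, w, hwD, htw⟩ := Submodule.mem_sup.1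
    (hcompl.sup_eq_top ▸ Submodule.mem_top : v.cls y₁ hy₁ ∈ v.line ⊔ D)
  obtain ⟨t', ht', rfl⟩ := v.exists_of_mem_line hts
  set c' := y₁ - t' with hc'
  have hc'Y : c' ∈ v.Y := AddSubgroup.sub_mem _ hy₁ (v.mem_Y_of_torsion ht')
  have hc'p : p • c' = v.c := by rw [hc', nsmul_sub, h₁, ht', sub_zero]
  have hc'D : v.cls c' hc'Y ∈ D := by
    have : v.cls c' hc'Y = w := by
      show v.cls y₁ hy₁ - v.cls t' (v.mem_Y_of_torsion ht') = w
      rw [← htw, add_sub_cancel_left]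
    rw [this]; exact hwD
  refine ⟨⟨c', by rw [pow_succ, mul_nsmul', hc'p, v.pow_c], fun σ => ?_⟩⟩
  have hσD := hD σ _ hc'D
  obtain ⟨a, ha⟩ := v.exists_coords hc'Y hc'p (σ • v.cls c' hc'Y)
  have h0 := hcompl.disjoint
  rw [Submodule.disjoint_def] at h0
  have hz := h0 _ ha (D.sub_mem hσD (D.smul_mem _ hc'D))
  rw [sub_eq_zero, v.smul_mk, v.smul_mk_intCast, v.mk_eq_mk] at hz
  obtain ⟨i, hi⟩ := AddSubgroup.mem_zmultiples_iff.mp hz
  refine ⟨a + i * p, ?_⟩
  rw [add_zsmul, mul_zsmul, natCast_zsmul, hc'p, hi, add_sub_cancel]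

include hΔ hss hp h2 h15 L in
/-- The tower has every level. -/
theorem nonempty_level (h14 : ExtCitation.ExtVanishingCts p) :
    ∀ k : ℕ, Nonempty (Level L k)
  | 0 => ⟨Level.base L⟩
  | k + 1 => by
    obtain ⟨v⟩ := nonempty_level h14 k
    exact Level.exists_succ hΔ hss hp h2 L v h15 h14

end Fermat.Agent.EC.Reducible
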